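import Mathlib

/-!
# GATE-Q (S52, the 3–5 switch) / node Q1: Klein's icosahedral forms and the Klein curve

Definitions VERBATIM from the GATE-Q graph (board 3926), over any commutative ring:

* `kc4 U V`, `kT U V`, `kf5 U V` : Klein's forms in `U = u ^ 5`, `V = v ^ 5`;
* `kc4_cube_sub_kT_sq` : the syzygy `kc4 ^ 3 - kT ^ 2 = -1728 * kf5`;
* `kleinCurveUV U V = ⟨0, 0, 0, -27 * kc4 U V, 54 * kT U V⟩`, `kleinCurve u v := kleinCurveUV (u^5) (v^5)`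
  with `c₄ = 6 ^ 4 * kc4`, `c₆ = -6 ^ 6 * kT`, `Δ = -6 ^ 12 * kf5`.
-/

set_option autoImplicit false

namespace Fermat.Agent.G35.Klein

variable {R : Type*} [CommRing R]

/-- Klein's form of degree `20` in `(u, v)`, as a quartic in `U = u ^ 5`, `V = v ^ 5`. -/
def kc4 (U V : R) : R := U ^ 4 + V ^ 4 - 228 * (U ^ 3 * V - U * V ^ 3) + 494 * U ^ 2 * V ^ 2

/-- Klein's form of degree `30` in `(u, v)`, as a sextic in `U`, `V`. -/
def kT (U V : R) : R :=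
  U ^ 6 + V ^ 6 + 522 * (U ^ 5 * V - U * V ^ 5) - 10005 * (U ^ 4 * V ^ 2 + U ^ 2 * V ^ 4)

/-- the fifth power of Klein's form `f` of degree `12`. -/
def kf5 (U V : R) : R := U * V * (U ^ 2 + 11 * U * V - V ^ 2) ^ 5

/-- the icosahedral syzygy -/
theorem kc4_cube_sub_kT_sq (U V : R) : kc4 U V ^ 3 - kT U V ^ 2 = -1728 * kf5 U V := by
  unfold kc4 kT kf5
  ring

/-- the Klein curve over the `(U, V)`-plane: `y² = x³ - 27 c4 x + 54 T`. -/
def kleinCurveUV (U V : R) : WeierstrassCurve R := ⟨0, 0, 0, -27 * kc4 U V, 54 * kT U V⟩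

/-- the Klein curve over the cone `(u, v)`. -/
def kleinCurve (u v : R) : WeierstrassCurve R := kleinCurveUV (u ^ 5) (v ^ 5)

@[simp] theorem kleinCurveUV_a₁ (U V : R) : (kleinCurveUV U V).a₁ = 0 := rfl
@[simp] theorem kleinCurveUV_a₂ (U V : R) : (kleinCurveUV U V).a₂ = 0 := rfl
@[simp] theorem kleinCurveUV_a₃ (U V : R) : (kleinCurveUV U V).a₃ = 0 := rfl
@[simp] theorem kleinCurveUV_a₄ (U V : R) : (kleinCurveUV U V).a₄ = -27 * kc4 U V := rfl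
@[simp] theorem kleinCurveUV_a₆ (U V : R) : (kleinCurveUV U V).a₆ = 54 * kT U V := rfl

theorem kleinCurveUV_b₂ (U V : R) : (kleinCurveUV U V).b₂ = 0 := by
  simp [WeierstrassCurve.b₂]

theorem kleinCurveUV_b₄ (U V : R) : (kleinCurveUV U V).b₄ = -54 * kc4 U V := by
  simp [WeierstrassCurve.b₄]; ring

theorem kleinCurveUV_b₆ (U V : R) : (kleinCurveUV U V).b₆ = 216 * kT U V := by
  simp [WeierstrassCurve.b₆]; ring

theorem kleinCurveUV_b₈ (U V : R) : (kleinCurveUV U V).b₈ = -729 * kc4 U V ^ 2 := by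
  simp [WeierstrassCurve.b₈]; ring

theorem kleinCurveUV_c₄ (U V : R) : (kleinCurveUV U V).c₄ = 6 ^ 4 * kc4 U V := by
  rw [WeierstrassCurve.c₄, kleinCurveUV_b₂, kleinCurveUV_b₄]; ring

theorem kleinCurveUV_c₆ (U V : R) : (kleinCurveUV U V).c₆ = -6 ^ 6 * kT U V := by
  rw [WeierstrassCurve.c₆, kleinCurveUV_b₂, kleinCurveUV_b₄, kleinCurveUV_b₆]; ring

theorem kleinCurveUV_Δ (U V : R) : (kleinCurveUV U V).Δ = -6 ^ 12 * kf5 U V := by
  rw [WeierstrassCurve.Δ, kleinCurveUV_b₂, kleinCurveUV_b₄, kleinCurveUV_b₆, kleinCurveUV_b₈]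
  have h := kc4_cube_sub_kT_sq U V
  linear_combination (1259712 : R) * h

theorem kleinCurve_c₄ (u v : R) : (kleinCurve u v).c₄ = 6 ^ 4 * kc4 (u ^ 5) (v ^ 5) :=
  kleinCurveUV_c₄ _ _

theorem kleinCurve_c₆ (u v : R) : (kleinCurve u v).c₆ = -6 ^ 6 * kT (u ^ 5) (v ^ 5) :=
  kleinCurveUV_c₆ _ _

theorem kleinCurve_Δ (u v : R) : (kleinCurve u v).Δ = -6 ^ 12 * kf5 (u ^ 5) (v ^ 5) :=
  kleinCurveUV_Δ _ _

/-- `Δ ≠ 0` as soon as `kf5 ≠ 0` (characteristic prime to `6`). -/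
theorem kleinCurveUV_Δ_ne_zero {K : Type*} [Field K] [CharZero K] {U V : K} (h : kf5 U V ≠ 0) :
    (kleinCurveUV U V).Δ ≠ 0 := by
  rw [kleinCurveUV_Δ]
  exact mul_ne_zero (neg_ne_zero.mpr (pow_ne_zero _ (by norm_num))) h

end Fermat.Agent.G35.Klein
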