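import Fermat.Agent.G35.Klein.Torsion

/-!
# GATE-Q (S52) / Q1–Q2(c): doubling the section = the Galois conjugate `ζ ↦ ζ²` (helper21)

`2 • P0(ζ) = P0(ζ²)` exactly: `x(2 P0) = kx0 (−s) U V`, `y(2 P0) = (ζ² − ζ³) · kC (−s) U V`.
Hence `σ_k P0 = k • P0` for the automorphism `ζ ↦ ζ^k` — the cyclotomic character on `⟨P0⟩ ≅ μ₅`.

* `two_nsmul_some_short` : a division-free criterion for `2 • (x, y) = (x', y')` on a curve with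
  `a₁ = a₂ = a₃ = 0`;
* `phi5_sq`, `ks_sq_arg`, `kw_mul_kw_sq_arg` : `Φ₅(ζ²) = 0`, `ks (ζ²) = −ks ζ`, `kw ζ * kw (ζ²) = −ks ζ`;
* `double_cert_x`, `double_cert_y` : the two polynomial certificates;
* `two_nsmul_P0UV`, `two_nsmul_P0` : `2 • P0 hζ hΔ = P0 (phi5_sq hζ) hΔ`;
* `P0UV_pow_four` : `P0(ζ⁴) = −P0(ζ)`;
* **`P0UV_pow`, `P0_pow`** : `P0(ζ^k) = k • P0(ζ)` for every `k` (with `Φ₅(ζ^k) = 0`), i.e. a Galois
  automorphism with `σ ζ = ζ^k` acts on `P0` as multiplication by `k`.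
-/

set_option autoImplicit false

namespace Fermat.Agent.G35.Klein.Section

open Fermat.Agent.G35.Klein WeierstrassCurve

universe u

variable {F : Type u} [Field F] [DecidableEq F]

/-- Doubling on `y² = x³ + a₄ x + a₆`, division-free certificate form. -/
theorem two_nsmul_some_short (W : WeierstrassCurve F) (h1 : W.a₁ = 0) (h2 : W.a₂ = 0)
    (h3 : W.a₃ = 0) {x y x' y' : F} (h : W.toAffine.Nonsingular x y)
    (h' : W.toAffine.Nonsingular x' y') (hy : y ≠ 0) (h2F : (2 : F) ≠ 0)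
    (hx : (3 * x ^ 2 + W.a₄) ^ 2 = 4 * y ^ 2 * (x' + 2 * x))
    (hyy : 2 * y * y' = (3 * x ^ 2 + W.a₄) * (x - x') - 2 * y ^ 2) :
    2 • (Affine.Point.some x y h) = Affine.Point.some x' y' h' := by
  have hne : y ≠ W.toAffine.negY x y := by
    simp only [Affine.negY, h1, h3]
    intro hh
    apply hy
    have : 2 * y = 0 := by linear_combination hh
    rcases mul_eq_zero.mp this with h0 | h0
    · exact absurd h0 h2F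
    · exact h0
  rw [two_nsmul, Affine.Point.add_self_of_Y_ne hne]
  have hsl : W.toAffine.slope x x y y = (3 * x ^ 2 + W.a₄) / (2 * y) := by
    rw [Affine.slope_of_Y_ne rfl hne]
    simp only [Affine.negY, h1, h2, h3]
    congr 1 <;> ring
  have h2y : (2 * y) ≠ 0 := mul_ne_zero h2F hy
  have hX : W.toAffine.addX x x (W.toAffine.slope x x y y) = x' := by
    rw [hsl]
    simp only [Affine.addX, h1, h2]
    field_simp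
    linear_combination hx
  have hY : W.toAffine.addY x x y (W.toAffine.slope x x y y) = y' := by
    simp only [Affine.addY, Affine.negAddY, Affine.negY, h1, h3]
    rw [hX, hsl]
    field_simp
    linear_combination -hyy
  congr 1

omit [DecidableEq F] in
theorem phi5_sq {ζ : F} (hζ : ζ ^ 4 + ζ ^ 3 + ζ ^ 2 + ζ + 1 = 0) :
    (ζ ^ 2) ^ 4 + (ζ ^ 2) ^ 3 + (ζ ^ 2) ^ 2 + ζ ^ 2 + 1 = 0 := by
  linear_combination (ζ ^ 4 - ζ ^ 3 + ζ ^ 2 - ζ + 1) * hζ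

omit [DecidableEq F] in
theorem ks_sq_arg {ζ : F} (hζ : ζ ^ 4 + ζ ^ 3 + ζ ^ 2 + ζ + 1 = 0) : ks (ζ ^ 2) = -ks ζ := by
  unfold ks
  linear_combination (2 * ζ ^ 4 - 2 * ζ ^ 3 + 2) * hζ

omit [DecidableEq F] in
theorem kw_mul_kw_sq_arg {ζ : F} (hζ : ζ ^ 4 + ζ ^ 3 + ζ ^ 2 + ζ + 1 = 0) :
    kw ζ * kw (ζ ^ 2) = -ks ζ := by
  unfold kw ks
  linear_combination (ζ ^ 8 - ζ ^ 7 - ζ ^ 5 + ζ ^ 4 + ζ ^ 3 - 2 * ζ ^ 2 + ζ + 1) * hζ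

variable [CharZero F]

omit [DecidableEq F] in
/-- certificate for `x(2 P0) = kx0 (−s)`. -/
theorem double_cert_x (s w U V : F) (hs : s ^ 2 = 5) (hw : w ^ 2 = -(5 + s) / 2) :
    (3 * kx0 s U V ^ 2 + -27 * kc4 U V) ^ 2
      = 4 * (w * kC s U V) ^ 2 * (kx0 (-s) U V + 2 * kx0 s U V) := by
  unfold kC kx0 kc4
  linear_combination
    ((419904/625)*s^2*U^8 + (26348976/625)*s^2*U^7*V + (560361888/625)*s^2*U^6*V^2 +
        (4927888368/625)*s^2*U^5*V^3 + (2911089456/125)*s^2*U^4*V^4 -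
        (8334359568/625)*s^2*U^3*V^5 + (1507770288/625)*s^2*U^2*V^6 - (112954176/625)*s^2*U*V^7
        + (3044304/625)*s^2*V^8 + (682344/125)*s*U^8 + (44719776/125)*s*U^7*V +
        (756667008/125)*s*U^6*V^2 + (4034542608/125)*s*U^5*V^3 + (532858176/25)*s*U^4*V^4 +
        (3270212352/125)*s*U^3*V^5 - (1648070712/125)*s*U^2*V^6 + (208272384/125)*s*U*V^7 -
        (7978176/125)*s*V^8 + (52488/5)*U^8 + 734832*U^7*V + (62880624/5)*U^6*V^2 +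
        (325215648/5)*U^5*V^3 + 17740944*U^4*V^4 - (14801616/5)*U^3*V^5 + 10235160*U^2*V^6 -
        (9237888/5)*U*V^7 + (419904/5)*V^8) * hs
    + (-4 * (54 / 5 * ((s + 3) * U ^ 3 + (9 * s + 37) * U ^ 2 * V + (41 - 23 * s) * U * V ^ 2
        + (2 * s - 4) * V ^ 3)) ^ 2
      * (-((15 + 18 / 5 * -s) * U ^ 2 + (198 / 5 * -s) * U * V + (15 - 18 / 5 * -s) * V ^ 2)
        + 2 * -((15 + 18 / 5 * s) * U ^ 2 + (198 / 5 * s) * U * V + (15 - 18 / 5 * s) * V ^ 2)))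
      * hw

omit [DecidableEq F] in
/-- certificate for `y(2 P0) = w' · kC (−s)`, `w w' = −s`. -/
theorem double_cert_y (s w w' U V : F) (hs : s ^ 2 = 5) (hw : w ^ 2 = -(5 + s) / 2)
    (hww : w * w' = -s) :
    2 * (w * kC s U V) * (w' * kC (-s) U V)
      = (3 * kx0 s U V ^ 2 + -27 * kc4 U V) * (kx0 s U V - kx0 (-s) U V)
        - 2 * (w * kC s U V) ^ 2 := by
  unfold kC kx0 kc4
  linear_combination
    ((49572/125)*s*U^6 + (1417176/125)*s*U^5*V + (2621484/25)*s*U^4*V^2 +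
        (7657416/25)*s*U^3*V^3 - (871884/25)*s*U^2*V^4 - (186624/125)*s*U*V^5 +
        (23328/125)*s*V^6 + (26244/25)*U^6 + (647352/25)*U^5*V + (941868/5)*U^4*V^2 +
        (1755432/5)*U^3*V^3 + (807732/5)*U^2*V^4 - (956448/25)*U*V^5 + (46656/25)*V^6) * hs
    + (2 * (54 / 5 * ((s + 3) * U ^ 3 + (9 * s + 37) * U ^ 2 * V + (41 - 23 * s) * U * V ^ 2
        + (2 * s - 4) * V ^ 3)) ^ 2) * hw
    + (2 * (54 / 5 * ((s + 3) * U ^ 3 + (9 * s + 37) * U ^ 2 * V + (41 - 23 * s) * U * V ^ 2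
        + (2 * s - 4) * V ^ 3))
      * (54 / 5 * ((-s + 3) * U ^ 3 + (9 * -s + 37) * U ^ 2 * V + (41 - 23 * -s) * U * V ^ 2
        + (2 * -s - 4) * V ^ 3))) * hww

/-- **Doubling = the conjugate `ζ ↦ ζ²`**: `2 • P0(ζ) = P0(ζ²)`. -/
theorem two_nsmul_P0UV {ζ : F} (hζ : ζ ^ 4 + ζ ^ 3 + ζ ^ 2 + ζ + 1 = 0) {U V : F}
    (hΔ : (kleinCurveUV U V).Δ ≠ 0) :
    2 • P0UV hζ hΔ = P0UV (phi5_sq hζ) hΔ := by
  unfold P0UV
  refine two_nsmul_some_short (kleinCurveUV U V) rfl rfl rfl _ _ (ky0_ne_zero hζ hΔ)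
    two_ne_zero ?_ ?_
  · rw [kleinCurveUV_a₄, ks_sq_arg hζ]
    exact double_cert_x (ks ζ) (kw ζ) U V (ks_sq hζ) (kw_sq hζ)
  · rw [kleinCurveUV_a₄]
    unfold ky0
    rw [ks_sq_arg hζ]
    exact double_cert_y (ks ζ) (kw ζ) (kw (ζ ^ 2)) U V (ks_sq hζ) (kw_sq hζ)
      (kw_mul_kw_sq_arg hζ)

theorem two_nsmul_P0 {ζ : F} (hζ : ζ ^ 4 + ζ ^ 3 + ζ ^ 2 + ζ + 1 = 0) {u v : F}
    (hΔ : (kleinCurve u v).Δ ≠ 0) :
    2 • P0 hζ hΔ = P0 (phi5_sq hζ) hΔ :=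
  two_nsmul_P0UV hζ _

/-! ### all conjugates: `P0(ζ^k) = k • P0(ζ)` -/

omit [DecidableEq F] [CharZero F] in
theorem some_congr' {W : WeierstrassCurve F} {x y x' y' : F} (hx : x = x') (hy : y = y')
    (h : W.toAffine.Nonsingular x y) (h' : W.toAffine.Nonsingular x' y') :
    Affine.Point.some x y h = Affine.Point.some x' y' h' := by
  subst hx; subst hy; rfl

omit [DecidableEq F] in
theorem P0UV_congr {ζ ζ' : F} (h : ζ = ζ') (hζ : ζ ^ 4 + ζ ^ 3 + ζ ^ 2 + ζ + 1 = 0)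
    (hζ' : ζ' ^ 4 + ζ' ^ 3 + ζ' ^ 2 + ζ' + 1 = 0) {U V : F}
    (hΔ : (kleinCurveUV U V).Δ ≠ 0) : P0UV hζ hΔ = P0UV hζ' hΔ := by
  subst h; rfl

omit [DecidableEq F] [CharZero F] in
theorem zeta_pow_five {ζ : F} (hζ : ζ ^ 4 + ζ ^ 3 + ζ ^ 2 + ζ + 1 = 0) : ζ ^ 5 = 1 := by
  linear_combination (ζ - 1) * hζ

omit [DecidableEq F] [CharZero F] in
theorem phi5_pow_four {ζ : F} (hζ : ζ ^ 4 + ζ ^ 3 + ζ ^ 2 + ζ + 1 = 0) :
    (ζ ^ 4) ^ 4 + (ζ ^ 4) ^ 3 + (ζ ^ 4) ^ 2 + ζ ^ 4 + 1 = 0 := by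
  have h5 := zeta_pow_five hζ
  have e16 : (ζ ^ 4) ^ 4 = ζ := by
    calc (ζ ^ 4) ^ 4 = (ζ ^ 5) ^ 3 * ζ := by ring
      _ = ζ := by rw [h5]; ring
  have e12 : (ζ ^ 4) ^ 3 = ζ ^ 2 := by
    calc (ζ ^ 4) ^ 3 = (ζ ^ 5) ^ 2 * ζ ^ 2 := by ring
      _ = ζ ^ 2 := by rw [h5]; ring
  have e8 : (ζ ^ 4) ^ 2 = ζ ^ 3 := by
    calc (ζ ^ 4) ^ 2 = ζ ^ 5 * ζ ^ 3 := by ring
      _ = ζ ^ 3 := by rw [h5]; ring
  rw [e16, e12, e8]
  linear_combination hζ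

omit [DecidableEq F] [CharZero F] in
theorem ks_pow_four {ζ : F} (hζ : ζ ^ 4 + ζ ^ 3 + ζ ^ 2 + ζ + 1 = 0) : ks (ζ ^ 4) = ks ζ := by
  have h5 := zeta_pow_five hζ
  have e16 : (ζ ^ 4) ^ 4 = ζ := by
    calc (ζ ^ 4) ^ 4 = (ζ ^ 5) ^ 3 * ζ := by ring
      _ = ζ := by rw [h5]; ring
  unfold ks
  rw [e16]; ring

omit [DecidableEq F] [CharZero F] in
theorem kw_pow_four {ζ : F} (hζ : ζ ^ 4 + ζ ^ 3 + ζ ^ 2 + ζ + 1 = 0) : kw (ζ ^ 4) = -kw ζ := by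
  have h5 := zeta_pow_five hζ
  have e16 : (ζ ^ 4) ^ 4 = ζ := by
    calc (ζ ^ 4) ^ 4 = (ζ ^ 5) ^ 3 * ζ := by ring
      _ = ζ := by rw [h5]; ring
  unfold kw
  rw [e16]; ring

omit [DecidableEq F] in
/-- the conjugate `ζ ↦ ζ⁴ = ζ⁻¹` negates `P0`. -/
theorem P0UV_pow_four {ζ : F} (hζ : ζ ^ 4 + ζ ^ 3 + ζ ^ 2 + ζ + 1 = 0) {U V : F}
    (hΔ : (kleinCurveUV U V).Δ ≠ 0) :
    P0UV (phi5_pow_four hζ) hΔ = -P0UV hζ hΔ := by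
  unfold P0UV
  rw [Affine.Point.neg_some]
  refine some_congr' ?_ ?_ _ _
  · rw [ks_pow_four hζ]
  · simp only [Affine.negY, kleinCurveUV_a₁, kleinCurveUV_a₃]
    unfold ky0
    rw [ks_pow_four hζ, kw_pow_four hζ]
    ring

/-- **Galois conjugates of the section**: `P0(ζ^k) = k • P0(ζ)`. -/
theorem P0UV_pow {ζ : F} (hζ : ζ ^ 4 + ζ ^ 3 + ζ ^ 2 + ζ + 1 = 0) {U V : F}
    (hΔ : (kleinCurveUV U V).Δ ≠ 0) (k : ℕ)
    (hζk : (ζ ^ k) ^ 4 + (ζ ^ k) ^ 3 + (ζ ^ k) ^ 2 + ζ ^ k + 1 = 0) :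
    P0UV hζk hΔ = k • P0UV hζ hΔ := by
  have h5 := zeta_pow_five hζ
  have h5P := five_nsmul_P0UV hζ hΔ
  have hk : ζ ^ k = ζ ^ (k % 5) := by
    conv_lhs => rw [← Nat.div_add_mod k 5, pow_add, pow_mul, h5, one_pow, one_mul]
  have hkP : k • P0UV hζ hΔ = (k % 5) • P0UV hζ hΔ := by
    conv_lhs => rw [← Nat.div_add_mod k 5, add_nsmul, mul_nsmul, h5P, nsmul_zero, zero_add]
  rw [hkP]
  have hlt : k % 5 < 5 := Nat.mod_lt _ (by norm_num)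
  generalize k % 5 = r at hk hlt
  have hζr : (ζ ^ r) ^ 4 + (ζ ^ r) ^ 3 + (ζ ^ r) ^ 2 + ζ ^ r + 1 = 0 := hk ▸ hζk
  rw [P0UV_congr hk hζk hζr hΔ]
  interval_cases r
  · exfalso
    simp only [pow_zero, one_pow] at hζr
    norm_num at hζr
  · rw [one_nsmul]
    exact P0UV_congr (pow_one ζ) _ _ hΔ
  · exact (two_nsmul_P0UV hζ hΔ).symm
  · -- ζ³ = (ζ⁴)²
    have e : ζ ^ 3 = (ζ ^ 4) ^ 2 := by
      calc ζ ^ 3 = ζ ^ 5 * ζ ^ 3 := by rw [h5, one_mul]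
        _ = (ζ ^ 4) ^ 2 := by ring
    rw [P0UV_congr e hζr (phi5_sq (phi5_pow_four hζ)) hΔ,
      ← two_nsmul_P0UV (phi5_pow_four hζ) hΔ, P0UV_pow_four hζ hΔ]
    have h3 : (3 : ℕ) • P0UV hζ hΔ + 2 • P0UV hζ hΔ = 0 := by
      rw [← add_nsmul]; exact h5P
    rw [smul_neg]
    exact (eq_neg_of_add_eq_zero_left h3).symm
  · rw [P0UV_pow_four hζ hΔ]
    have h4 : (4 : ℕ) • P0UV hζ hΔ + P0UV hζ hΔ = 0 := by
      rw [← succ_nsmul]; exact h5P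
    exact (eq_neg_of_add_eq_zero_left h4).symm

theorem P0_pow {ζ : F} (hζ : ζ ^ 4 + ζ ^ 3 + ζ ^ 2 + ζ + 1 = 0) {u v : F}
    (hΔ : (kleinCurve u v).Δ ≠ 0) (k : ℕ)
    (hζk : (ζ ^ k) ^ 4 + (ζ ^ k) ^ 3 + (ζ ^ k) ^ 2 + ζ ^ k + 1 = 0) :
    P0 hζk hΔ = k • P0 hζ hΔ :=
  P0UV_pow hζ _ k hζk

end Fermat.Agent.G35.Klein.Section
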