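import Fermat.Agent.G35.Klein.Forms

/-!
# GATE-Q (S52) / node Q1: the `5`-torsion section of the Klein curve — `x`-coordinate certificate

`kx0 s U V = -((15 + 18/5 s) U² + (198/5 s) U V + (15 - 18/5 s) V²)`, `s² = 5`, is a root of the
`5`-division polynomial of the Klein curve `y² = x³ - 27 c4(U,V) x + 54 T(U,V)`:

* `Ψ₃_eval_kx0`, `Ψ₂Sq_eval_kx0`, `preΨ₄_eval_kx0` : the values of `Ψ₃`, `Ψ₂Sq`, `preΨ₄` at `kx0`
  in the form `a(U,V) + b(U,V) s`;
* `preΨ'_five_eval_kx0`, **`ΨSq_five_eval_kx0`** : `(ΨSq 5).eval kx0 = 0`.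

All cofactors were computed by exact rational polynomial arithmetic (division by `s² - 5`) and are
checked here by `linear_combination`.
-/

set_option autoImplicit false

namespace Fermat.Agent.G35.Klein

open Polynomial

variable {K : Type*} [Field K] [CharZero K]

/-- the `x`-coordinate of the `5`-torsion section `P0` of the Klein curve (`s = √5`). -/
def kx0 (s U V : K) : K :=
  -((15 + 18 / 5 * s) * U ^ 2 + (198 / 5 * s) * U * V + (15 - 18 / 5 * s) * V ^ 2)

/-- auxiliary form (value of a division polynomial at `kx0`, `a`-part) -/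
def kP3a (U V : K) : K :=
    (9237888/25)*U^8 + (301491072/25)*U^7*V + (3205547136/25)*U^6*V^2
    + (10171754496/25)*U^5*V^3 + (-2180141568/5)*U^4*V^4 + (-10171754496/25)*U^3*V^5
    + (3205547136/25)*U^2*V^6 + (-301491072/25)*U*V^7 + (9237888/25)*V^8

/-- auxiliary form (value of a division polynomial at `kx0`, `b`-part) -/
def kP3b (U V : K) : K :=
    (839808/5)*U^8 + (27713664/5)*U^7*V + (303170688/5)*U^6*V^2 + (1090070784/5)*U^5*V^3
    + (1090070784/5)*U^3*V^5 + (-303170688/5)*U^2*V^6 + (27713664/5)*U*V^7 + (-839808/5)*V^8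

/-- auxiliary form (value of a division polynomial at `kx0`, `a`-part) -/
def kP2a (U V : K) : K :=
    (-23328)*U^6 + (-513216)*U^5*V + (-2799360)*U^4*V^2 + (-2799360)*U^2*V^4 + 513216*U*V^5
    + (-23328)*V^6

/-- auxiliary form (value of a division polynomial at `kx0`, `b`-part) -/
def kP2b (U V : K) : K :=
    (-256608/25)*U^6 + (-5552064/25)*U^5*V + (-5645376/5)*U^4*V^2 + (4478976/5)*U^3*V^3
    + (5645376/5)*U^2*V^4 + (-5552064/25)*U*V^5 + (256608/25)*V^6

/-- auxiliary form (value of a division polynomial at `kx0`, `a`-part) -/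
def kP4a (U V : K) : K :=
    (11972302848/125)*U^12 + (654123091968/125)*U^11*V + (14175206572032/125)*U^10*V^2
    + (30162584438784/25)*U^9*V^3 + (152335581437952/25)*U^8*V^4
    + (1153739262117888/125)*U^7*V^5 + (-2252876116119552/125)*U^6*V^6
    + (-1153739262117888/125)*U^5*V^7 + (152335581437952/25)*U^4*V^8
    + (-30162584438784/25)*U^3*V^9 + (14175206572032/125)*U^2*V^10 + (-654123091968/125)*U*V^11
    + (11972302848/125)*V^12

/-- auxiliary form (value of a division polynomial at `kx0`, `b`-part) -/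
def kP4b (U V : K) : K :=
    (1088391168/25)*U^12 + (11972302848/5)*U^11*V + (1312599748608/25)*U^10*V^2
    + (2861380380672/5)*U^9*V^3 + (15409442156544/5)*U^8*V^4 + (160919722579968/25)*U^7*V^5
    + (160919722579968/25)*U^5*V^7 + (-15409442156544/5)*U^4*V^8 + (2861380380672/5)*U^3*V^9
    + (-1312599748608/25)*U^2*V^10 + (11972302848/5)*U*V^11 + (-1088391168/25)*V^12

theorem Ψ₃_eval_kx0 (s U V : K) (hs : s ^ 2 = 5) :
    (kleinCurveUV U V).Ψ₃.eval (kx0 s U V) = kP3a U V + kP3b U V * s := by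
  rw [WeierstrassCurve.Ψ₃, kleinCurveUV_b₂, kleinCurveUV_b₄, kleinCurveUV_b₆, kleinCurveUV_b₈]
  simp only [eval_add, eval_mul, eval_pow, eval_X, eval_C, eval_ofNat]
  unfold kx0 kP3a kP3b kc4 kT
  linear_combination
    ((314928/625)*U^8*s^2 + (209952/25)*U^8*s + (6613488/125)*U^8 + (13856832/625)*U^7*V*s^2
      + (6928416/25)*U^7*V*s + (212261472/125)*U^7*V + (227378016/625)*U^6*V^2*s^2
      + (75792672/25)*U^6*V^2*s + (2176782336/125)*U^6*V^2 + (1635106176/625)*U^5*V^3*s^2
      + (272517696/25)*U^5*V^3*s + (5993709696/125)*U^5*V^3 + (831094992/125)*U^4*V^4*s^2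
      + (-2466201168/25)*U^4*V^4 + (-1635106176/625)*U^3*V^5*s^2 + (272517696/25)*U^3*V^5*s
      + (-5993709696/125)*U^3*V^5 + (227378016/625)*U^2*V^6*s^2 + (-75792672/25)*U^2*V^6*s
      + (2176782336/125)*U^2*V^6 + (-13856832/625)*U*V^7*s^2 + (6928416/25)*U*V^7*s
      + (-212261472/125)*U*V^7 + (314928/625)*V^8*s^2 + (-209952/25)*V^8*s + (6613488/125)*V^8) * hs

theorem Ψ₂Sq_eval_kx0 (s U V : K) (hs : s ^ 2 = 5) :
    (kleinCurveUV U V).Ψ₂Sq.eval (kx0 s U V) = kP2a U V + kP2b U V * s := by
  rw [WeierstrassCurve.Ψ₂Sq, kleinCurveUV_b₂, kleinCurveUV_b₄, kleinCurveUV_b₆]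
  simp only [eval_add, eval_mul, eval_pow, eval_X, eval_C]
  unfold kx0 kP2a kP2b kc4 kT
  linear_combination
    ((-23328/125)*U^6*s + (-11664/5)*U^6 + (-769824/125)*U^5*V*s + (-256608/5)*U^5*V
      + (-1679616/25)*U^4*V^2*s + (-279936)*U^4*V^2 + (-5901984/25)*U^3*V^3*s
      + (1679616/25)*U^2*V^4*s + (-279936)*U^2*V^4 + (-769824/125)*U*V^5*s + (256608/5)*U*V^5
      + (23328/125)*V^6*s + (-11664/5)*V^6) * hs

theorem preΨ₄_eval_kx0 (s U V : K) (hs : s ^ 2 = 5) :
    (kleinCurveUV U V).preΨ₄.eval (kx0 s U V) = kP4a U V + kP4b U V * s := by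
  rw [WeierstrassCurve.preΨ₄, kleinCurveUV_b₂, kleinCurveUV_b₄, kleinCurveUV_b₆, kleinCurveUV_b₈]
  simp only [eval_add, eval_mul, eval_pow, eval_X, eval_C, eval_ofNat]
  unfold kx0 kP4a kP4b kc4 kT
  linear_combination
    ((68024448/15625)*U^12*s^4 + (68024448/625)*U^12*s^3 + (3469246848/3125)*U^12*s^2
      + (748268928/125)*U^12*s + (11972302848/625)*U^12 + (4489613568/15625)*U^11*V*s^4
      + (748268928/125)*U^11*V*s^3 + (186455011968/3125)*U^11*V*s^2 + (8230958208/25)*U^11*V*s
      + (662626147968/625)*U^11*V + (123056226432/15625)*U^10*V^2*s^4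
      + (82037484288/625)*U^10*V^2*s^3 + (3937527148032/3125)*U^10*V^2*s^2
      + (902412327168/125)*U^10*V^2*s + (14642874652032/625)*U^10*V^2
      + (357672547584/3125)*U^9*V^3*s^4 + (178836273792/125)*U^9*V^3*s^3
      + (7995117446784/625)*U^9*V^3*s^2 + (1967199011712/25)*U^9*V^3*s
      + (32211820934784/125)*U^9*V^3 + (2889270404352/3125)*U^8*V^4*s^4
      + (963090134784/125)*U^8*V^4*s^3 + (36047787581952/625)*U^8*V^4*s^2
      + (10593991482624/25)*U^8*V^4*s + (174596582045952/125)*U^8*V^4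
      + (60344895967488/15625)*U^7*V^5*s^4 + (10057482661248/625)*U^7*V^5*s^3
      + (119163935541888/3125)*U^7*V^5*s^2 + (110632309273728/125)*U^7*V^5*s
      + (1745424413877888/625)*U^7*V^5 + (91370506578048/15625)*U^6*V^6*s^4
      + (-1069505812599552/3125)*U^6*V^6*s^2 + (-1106995786503552/625)*U^6*V^6
      + (-60344895967488/15625)*U^5*V^7*s^4 + (10057482661248/625)*U^5*V^7*s^3
      + (-119163935541888/3125)*U^5*V^7*s^2 + (110632309273728/125)*U^5*V^7*s
      + (-1745424413877888/625)*U^5*V^7 + (2889270404352/3125)*U^4*V^8*s^4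
      + (-963090134784/125)*U^4*V^8*s^3 + (36047787581952/625)*U^4*V^8*s^2
      + (-10593991482624/25)*U^4*V^8*s + (174596582045952/125)*U^4*V^8
      + (-357672547584/3125)*U^3*V^9*s^4 + (178836273792/125)*U^3*V^9*s^3
      + (-7995117446784/625)*U^3*V^9*s^2 + (1967199011712/25)*U^3*V^9*s
      + (-32211820934784/125)*U^3*V^9 + (123056226432/15625)*U^2*V^10*s^4
      + (-82037484288/625)*U^2*V^10*s^3 + (3937527148032/3125)*U^2*V^10*s^2
      + (-902412327168/125)*U^2*V^10*s + (14642874652032/625)*U^2*V^10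
      + (-4489613568/15625)*U*V^11*s^4 + (748268928/125)*U*V^11*s^3
      + (-186455011968/3125)*U*V^11*s^2 + (8230958208/25)*U*V^11*s + (-662626147968/625)*U*V^11
      + (68024448/15625)*V^12*s^4 + (-68024448/625)*V^12*s^3 + (3469246848/3125)*V^12*s^2
      + (-748268928/125)*V^12*s + (11972302848/625)*V^12) * hs

/-- the core identity: `preΨ₄ Ψ₂Sq² = Ψ₃³` at `kx0` -/
theorem core_identity (s U V : K) (hs : s ^ 2 = 5) :
    (kP4a U V + kP4b U V * s) * (kP2a U V + kP2b U V * s) ^ 2 - (kP3a U V + kP3b U V * s) ^ 3 = 0 := by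
  unfold kP4a kP4b kP2a kP2b kP3a kP3b
  linear_combination
    ((-2369190669160808448/15625)*U^24*s + (-26061097360768892928/78125)*U^24
      + (-286672070968457822208/15625)*U^23*V*s + (-3143916017976392810496/78125)*U^23*V
      + (-3148654399314714427392/3125)*U^22*V^2*s + (-171977181483713924431872/78125)*U^22*V^2
      + (-517729760169034826907648/15625)*U^21*V^3*s
      + (-5625756965074459378581504/78125)*U^21*V^3
      + (-11320784326933842474565632/15625)*U^20*V^4*s
      + (-122112555382150104694652928/78125)*U^20*V^4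
      + (-172648828084895660340412416/15625)*U^19*V^5*s
      + (-1842533187299183051371708416/78125)*U^19*V^5
      + (-1870835148116517657558122496/15625)*U^18*V^6*s
      + (-19641950133963689219862822912/78125)*U^18*V^6
      + (-2872938340231813103785869312/3125)*U^17*V^7*s
      + (-146786597824050614762874077184/78125)*U^17*V^7
      + (-76199551634200083867774222336/15625)*U^16*V^8*s
      + (-740515164408319277016796889088/78125)*U^16*V^8
      + (-263118372064086699927052222464/15625)*U^15*V^9*s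
      + (-2284705679631353028255380668416/78125)*U^15*V^9
      + (-517900777233630672745295511552/15625)*U^14*V^10*s
      + (-3065724828929070400927728402432/78125)*U^14*V^10
      + (-398301517204500354596635410432/15625)*U^13*V^11*s
      + (2869294192021325517871147646976/78125)*U^13*V^11
      + (10355839447317009219512520671232/78125)*U^12*V^12
      + (-398301517204500354596635410432/15625)*U^11*V^13*s
      + (-2869294192021325517871147646976/78125)*U^11*V^13
      + (517900777233630672745295511552/15625)*U^10*V^14*s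
      + (-3065724828929070400927728402432/78125)*U^10*V^14
      + (-263118372064086699927052222464/15625)*U^9*V^15*s
      + (2284705679631353028255380668416/78125)*U^9*V^15
      + (76199551634200083867774222336/15625)*U^8*V^16*s
      + (-740515164408319277016796889088/78125)*U^8*V^16
      + (-2872938340231813103785869312/3125)*U^7*V^17*s
      + (146786597824050614762874077184/78125)*U^7*V^17
      + (1870835148116517657558122496/15625)*U^6*V^18*s
      + (-19641950133963689219862822912/78125)*U^6*V^18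
      + (-172648828084895660340412416/15625)*U^5*V^19*s
      + (1842533187299183051371708416/78125)*U^5*V^19
      + (11320784326933842474565632/15625)*U^4*V^20*s
      + (-122112555382150104694652928/78125)*U^4*V^20
      + (-517729760169034826907648/15625)*U^3*V^21*s
      + (5625756965074459378581504/78125)*U^3*V^21 + (3148654399314714427392/3125)*U^2*V^22*s
      + (-171977181483713924431872/78125)*U^2*V^22 + (-286672070968457822208/15625)*U*V^23*s
      + (3143916017976392810496/78125)*U*V^23 + (2369190669160808448/15625)*V^24*s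
      + (-26061097360768892928/78125)*V^24) * hs

omit [CharZero K] in
theorem preΨ'_five (W : WeierstrassCurve K) :
    W.preΨ' 5 = W.preΨ₄ * W.Ψ₂Sq ^ 2 - W.Ψ₃ ^ 3 := by
  have h := W.preΨ'_odd 0
  simpa using h

theorem preΨ'_five_eval_kx0 (s U V : K) (hs : s ^ 2 = 5) :
    ((kleinCurveUV U V).preΨ' 5).eval (kx0 s U V) = 0 := by
  rw [preΨ'_five, eval_sub, eval_mul, eval_pow, eval_pow, Ψ₃_eval_kx0 s U V hs,
    Ψ₂Sq_eval_kx0 s U V hs, preΨ₄_eval_kx0 s U V hs]
  exact core_identity s U V hs

/-- **Certificate**: `kx0` is a root of the `5`-division polynomial of the Klein curve. -/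
theorem ΨSq_five_eval_kx0 (s U V : K) (hs : s ^ 2 = 5) :
    ((kleinCurveUV U V).ΨSq (5 : ℕ)).eval (kx0 s U V) = 0 := by
  rw [WeierstrassCurve.ΨSq_ofNat, eval_mul, eval_pow, preΨ'_five_eval_kx0 s U V hs]
  simp

theorem ΨSq_five_eval_kx0_cone (s u v : K) (hs : s ^ 2 = 5) :
    ((kleinCurve u v).ΨSq (5 : ℕ)).eval (kx0 s (u ^ 5) (v ^ 5)) = 0 :=
  ΨSq_five_eval_kx0 s (u ^ 5) (v ^ 5) hs

end Fermat.Agent.G35.Klein
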