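import Fermat.Agent.G35.Klein.Double
import Fermat.Agent.G35.Sym.KleinInv

/-!
# GATE-Q (S52) / Q1: the second generator `Q0 = P0 ∘ S` of the `5`-torsion (helper21)

`S = (1/√5) [[ζ⁴−ζ, ζ²−ζ³],[ζ²−ζ³, ζ−ζ⁴]]` (helper3's `KleinInv.Su`, `KleinInv.Sv` are `√5 • S`).

* `kS1 ζ u v`, `kS2 ζ u v` : the two coordinates of `S (u, v)`;
* `kleinCurve_S` : `kleinCurve (kS1 ζ u v) (kS2 ζ u v) = kleinCurve u v` (helper3's invariance);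
* `kxQ ζ u v`, `kyQ ζ u v` : the coordinates of `Q0 (u,v) = P0 (S (u,v))`;
* `Q0 hζ hΔ : (kleinCurve u v).toAffine.Point`, `Q0_ne_zero`, `five_nsmul_Q0`, `addOrderOf_Q0`;
* `kS1_S`, `kS2_S` : `S² = −1`; `kxQ_S`, `kyQ_S` : `Q0 ∘ S = −P0` in coordinates; `Q0_pow`.
-/

set_option autoImplicit false

namespace Fermat.Agent.G35.Klein.Section

open Fermat.Agent.G35.Klein WeierstrassCurve

universe u

variable {F : Type u} [Field F]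

/-- first coordinate of `S (u, v)`. -/
def kS1 (ζ u v : F) : F := (ks ζ)⁻¹ * KleinInv.Su ζ u v

/-- second coordinate of `S (u, v)`. -/
def kS2 (ζ u v : F) : F := (ks ζ)⁻¹ * KleinInv.Sv ζ u v

theorem ks_eq_sq5 (ζ : F) : ks ζ = KleinInv.sq5 ζ := rfl

theorem kc4_eq (U V : F) : kc4 U V = KleinInv.kc4 U V := rfl

theorem kT_eq (U V : F) : kT U V = KleinInv.kT U V := rfl

theorem kf5_eq (U V : F) : kf5 U V = KleinInv.kf5 U V := rfl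

variable [CharZero F]

theorem five_ne_zero' : (5 : F) ≠ 0 := by norm_num

/-- **`S`-invariance of the Klein curve.** -/
theorem kleinCurve_S {ζ : F} (hζ : ζ ^ 4 + ζ ^ 3 + ζ ^ 2 + ζ + 1 = 0) (u v : F) :
    kleinCurve (kS1 ζ u v) (kS2 ζ u v) = kleinCurve u v := by
  unfold kleinCurve kleinCurveUV kS1 kS2
  rw [kc4_eq, kT_eq, kc4_eq, kT_eq, ks_eq_sq5, KleinInv.kc4_S_inv hζ five_ne_zero',
    KleinInv.kT_S_inv hζ five_ne_zero']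

/-- `x(Q0)`. -/
def kxQ (ζ u v : F) : F := kx0 (ks ζ) (kS1 ζ u v ^ 5) (kS2 ζ u v ^ 5)

/-- `y(Q0)`. -/
def kyQ (ζ u v : F) : F := ky0 ζ (kS1 ζ u v ^ 5) (kS2 ζ u v ^ 5)

theorem nonsingular_Q0 {ζ : F} (hζ : ζ ^ 4 + ζ ^ 3 + ζ ^ 2 + ζ + 1 = 0) {u v : F}
    (hΔ : (kleinCurve u v).Δ ≠ 0) :
    (kleinCurve u v).toAffine.Nonsingular (kxQ ζ u v) (kyQ ζ u v) := by
  have hΔ' : (kleinCurve (kS1 ζ u v) (kS2 ζ u v)).Δ ≠ 0 := by rwa [kleinCurve_S hζ]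
  have h := nonsingular_P0UV (U := kS1 ζ u v ^ 5) (V := kS2 ζ u v ^ 5) hζ hΔ'
  have e : kleinCurveUV (kS1 ζ u v ^ 5) (kS2 ζ u v ^ 5) = kleinCurve u v := kleinCurve_S hζ u v
  rw [e] at h
  exact h

/-- The second generator `Q0 = P0 ∘ S`, a point of `kleinCurve u v`. -/
def Q0 {ζ : F} (hζ : ζ ^ 4 + ζ ^ 3 + ζ ^ 2 + ζ + 1 = 0) {u v : F}
    (hΔ : (kleinCurve u v).Δ ≠ 0) : (kleinCurve u v).toAffine.Point :=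
  .some (kxQ ζ u v) (kyQ ζ u v) (nonsingular_Q0 hζ hΔ)

theorem Q0_ne_zero {ζ : F} (hζ : ζ ^ 4 + ζ ^ 3 + ζ ^ 2 + ζ + 1 = 0) {u v : F}
    (hΔ : (kleinCurve u v).Δ ≠ 0) : Q0 hζ hΔ ≠ 0 :=
  Affine.Point.some_ne_zero _

variable [DecidableEq F]

theorem five_nsmul_Q0 {ζ : F} (hζ : ζ ^ 4 + ζ ^ 3 + ζ ^ 2 + ζ + 1 = 0) {u v : F}
    (hΔ : (kleinCurve u v).Δ ≠ 0) : 5 • Q0 hζ hΔ = 0 := by
  refine (Fermat.Agent.GE.Tors.nsmul_eq_zero_iff_ΨSq (kleinCurve u v) hΔ 5 (by norm_num)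
    (nonsingular_Q0 hζ hΔ)).mpr ?_
  have h := ΨSq_five_eval_kx0_cone (ks ζ) (kS1 ζ u v) (kS2 ζ u v) (ks_sq hζ)
  rw [kleinCurve_S hζ] at h
  exact h

theorem addOrderOf_Q0 {ζ : F} (hζ : ζ ^ 4 + ζ ^ 3 + ζ ^ 2 + ζ + 1 = 0) {u v : F}
    (hΔ : (kleinCurve u v).Δ ≠ 0) : addOrderOf (Q0 hζ hΔ) = 5 :=
  haveI : Fact (Nat.Prime 5) := ⟨by norm_num⟩
  addOrderOf_eq_prime (five_nsmul_Q0 hζ hΔ) (Q0_ne_zero hζ hΔ)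

omit [DecidableEq F] in
/-- `S² = −1`, first coordinate. -/
theorem kS1_S {ζ : F} (hζ : ζ ^ 4 + ζ ^ 3 + ζ ^ 2 + ζ + 1 = 0) (u v : F) :
    kS1 ζ (kS1 ζ u v) (kS2 ζ u v) = -u :=
  KleinInv.S_S_scaled_u hζ (KleinInv.sq5_inv_sq hζ five_ne_zero') u v

omit [DecidableEq F] in
/-- `S² = −1`, second coordinate. -/
theorem kS2_S {ζ : F} (hζ : ζ ^ 4 + ζ ^ 3 + ζ ^ 2 + ζ + 1 = 0) (u v : F) :
    kS2 ζ (kS1 ζ u v) (kS2 ζ u v) = -v :=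
  KleinInv.S_S_scaled_v hζ (KleinInv.sq5_inv_sq hζ five_ne_zero') u v

omit [DecidableEq F] in
/-- `x(Q0 (S w)) = x(P0 w)`. -/
theorem kxQ_S {ζ : F} (hζ : ζ ^ 4 + ζ ^ 3 + ζ ^ 2 + ζ + 1 = 0) (u v : F) :
    kxQ ζ (kS1 ζ u v) (kS2 ζ u v) = kx0 (ks ζ) (u ^ 5) (v ^ 5) := by
  unfold kxQ
  rw [kS1_S hζ, kS2_S hζ]
  have h1 : (-u) ^ 5 = -(u ^ 5) := by ring
  have h2 : (-v) ^ 5 = -(v ^ 5) := by ring
  rw [h1, h2, kx0_neg_neg]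

omit [DecidableEq F] in
/-- `y(Q0 (S w)) = −y(P0 w)`. -/
theorem kyQ_S {ζ : F} (hζ : ζ ^ 4 + ζ ^ 3 + ζ ^ 2 + ζ + 1 = 0) (u v : F) :
    kyQ ζ (kS1 ζ u v) (kS2 ζ u v) = -ky0 ζ (u ^ 5) (v ^ 5) := by
  unfold kyQ
  rw [kS1_S hζ, kS2_S hζ]
  have h1 : (-u) ^ 5 = -(u ^ 5) := by ring
  have h2 : (-v) ^ 5 = -(v ^ 5) := by ring
  rw [h1, h2, ky0_neg_neg]

end Fermat.Agent.G35.Klein.Section
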