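import Fermat.Agent.G35.Klein.Q0TCert

/-!
# GATE-Q (S52) / Q2(b): `Q0 ∘ T̃ = Q0 − P0` at point level (helper21)

* `add_some_short` : division-free chord addition on `y² = x³ + a₄x + a₆`;
* `kS1_pow_five`, `kS2_pow_five`, **`kxQ_eq`, `kyQ_eq`** : `x(Q0 w) = kxQr u v`, `y(Q0 w) = kyQr u v`
  are RATIONAL forms (no `ζ`): `Q0` is a rational section of the family;
* `kleinCurve_Ttilde`, `kleinCurve_Z` : the curve is unchanged by `T̃ = diag(ζ³, ζ²)`, `Z = ζ`;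
* `nonsingular_Q0_Ttilde`;
* **`Q0_Ttilde`** : `(x, y)(Q0 (T̃ w)) = Q0 w − P0 w` in `(kleinCurve u v).Point`, provided
  `x(Q0 w) ≠ x(P0 w)` (helper3's `XDiff`).
-/

set_option autoImplicit false

namespace Fermat.Agent.G35.Klein.Section

open Fermat.Agent.G35.Klein WeierstrassCurve

universe u

variable {F : Type u} [Field F]

/-- Chord addition on `y² = x³ + a₄ x + a₆`, division-free certificate form. -/
theorem add_some_short [DecidableEq F] (W : WeierstrassCurve F) (h1 : W.a₁ = 0) (h2 : W.a₂ = 0)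
    (h3 : W.a₃ = 0) {x₁ y₁ x₂ y₂ x₃ y₃ : F} (hP₁ : W.toAffine.Nonsingular x₁ y₁)
    (hP₂ : W.toAffine.Nonsingular x₂ y₂) (hP₃ : W.toAffine.Nonsingular x₃ y₃) (hx : x₁ ≠ x₂)
    (hX : (y₁ - y₂) ^ 2 = (x₃ + x₁ + x₂) * (x₁ - x₂) ^ 2)
    (hY : y₃ * (x₁ - x₂) + (y₁ - y₂) * (x₃ - x₁) + y₁ * (x₁ - x₂) = 0) :
    Affine.Point.some x₁ y₁ hP₁ + Affine.Point.some x₂ y₂ hP₂ = Affine.Point.some x₃ y₃ hP₃ := by
  rw [Affine.Point.add_of_X_ne hx]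
  have hd : x₁ - x₂ ≠ 0 := sub_ne_zero.mpr hx
  have hsl : W.toAffine.slope x₁ x₂ y₁ y₂ = (y₁ - y₂) / (x₁ - x₂) :=
    Affine.slope_of_X_ne hx
  have hXe : W.toAffine.addX x₁ x₂ (W.toAffine.slope x₁ x₂ y₁ y₂) = x₃ := by
    rw [hsl]
    simp only [Affine.addX, h1, h2]
    field_simp
    linear_combination hX
  have hYe : W.toAffine.addY x₁ x₂ y₁ (W.toAffine.slope x₁ x₂ y₁ y₂) = y₃ := by
    simp only [Affine.addY, Affine.negAddY, Affine.negY, h1, h3]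
    rw [hXe, hsl]
    field_simp
    linear_combination -hY
  congr 1

variable [CharZero F]

theorem ks_inv {ζ : F} (hζ : ζ ^ 4 + ζ ^ 3 + ζ ^ 2 + ζ + 1 = 0) : (ks ζ)⁻¹ = ks ζ / 5 := by
  have hs := ks_sq hζ
  have h0 : ks ζ ≠ 0 := by
    intro h
    rw [h] at hs
    norm_num at hs
  field_simp
  linear_combination -hs

theorem kS1_pow_five {ζ : F} (hζ : ζ ^ 4 + ζ ^ 3 + ζ ^ 2 + ζ + 1 = 0) (u v : F) :
    kS1 ζ u v ^ 5 = kUS ζ u v := by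
  unfold kS1
  rw [ks_inv hζ]
  exact kUS_eq hζ u v

theorem kS2_pow_five {ζ : F} (hζ : ζ ^ 4 + ζ ^ 3 + ζ ^ 2 + ζ + 1 = 0) (u v : F) :
    kS2 ζ u v ^ 5 = kVS ζ u v := by
  unfold kS2
  rw [ks_inv hζ]
  exact kVS_eq hζ u v

/-- **`x(Q0)` is a rational form.** -/
theorem kxQ_eq {ζ : F} (hζ : ζ ^ 4 + ζ ^ 3 + ζ ^ 2 + ζ + 1 = 0) (u v : F) :
    kxQ ζ u v = kxQr u v := by
  unfold kxQ
  rw [kS1_pow_five hζ, kS2_pow_five hζ]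
  exact kxQr_eq hζ u v

/-- **`y(Q0)` is a rational form.** -/
theorem kyQ_eq {ζ : F} (hζ : ζ ^ 4 + ζ ^ 3 + ζ ^ 2 + ζ + 1 = 0) (u v : F) :
    kyQ ζ u v = kyQr u v := by
  unfold kyQ
  rw [kS1_pow_five hζ, kS2_pow_five hζ]
  exact kyQr_eq hζ u v

omit [CharZero F] in
theorem kleinCurve_Ttilde {ζ : F} (hζ : ζ ^ 4 + ζ ^ 3 + ζ ^ 2 + ζ + 1 = 0) (u v : F) :
    kleinCurve (ζ ^ 3 * u) (ζ ^ 2 * v) = kleinCurve u v := by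
  unfold kleinCurve
  rw [KleinInv.zeta3_mul_pow5 hζ, KleinInv.zeta2_mul_pow5 hζ]

omit [CharZero F] in
theorem kleinCurve_Z {ζ : F} (hζ : ζ ^ 4 + ζ ^ 3 + ζ ^ 2 + ζ + 1 = 0) (u v : F) :
    kleinCurve (ζ * u) (ζ * v) = kleinCurve u v := by
  unfold kleinCurve
  rw [KleinInv.zeta_mul_pow5 hζ, KleinInv.zeta_mul_pow5 hζ]

theorem nonsingular_Q0_Ttilde {ζ : F} (hζ : ζ ^ 4 + ζ ^ 3 + ζ ^ 2 + ζ + 1 = 0) {u v : F}
    (hΔ : (kleinCurve u v).Δ ≠ 0) :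
    (kleinCurve u v).toAffine.Nonsingular (kxQ ζ (ζ ^ 3 * u) (ζ ^ 2 * v))
      (kyQ ζ (ζ ^ 3 * u) (ζ ^ 2 * v)) := by
  have hΔ' : (kleinCurve (ζ ^ 3 * u) (ζ ^ 2 * v)).Δ ≠ 0 := by rwa [kleinCurve_Ttilde hζ]
  have h := nonsingular_Q0 hζ hΔ'
  rw [kleinCurve_Ttilde hζ] at h
  exact h

/-- `nonsingular_P0UV` on the cone, typed on `kleinCurve u v`. -/
theorem nonsingular_P0 {ζ : F} (hζ : ζ ^ 4 + ζ ^ 3 + ζ ^ 2 + ζ + 1 = 0) {u v : F}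
    (hΔ : (kleinCurve u v).Δ ≠ 0) :
    (kleinCurve u v).toAffine.Nonsingular (kx0 (ks ζ) (u ^ 5) (v ^ 5)) (ky0 ζ (u ^ 5) (v ^ 5)) :=
  nonsingular_P0UV (U := u ^ 5) (V := v ^ 5) hζ hΔ

theorem P0_eq_some' {ζ : F} (hζ : ζ ^ 4 + ζ ^ 3 + ζ ^ 2 + ζ + 1 = 0) {u v : F}
    (hΔ : (kleinCurve u v).Δ ≠ 0) :
    P0 hζ hΔ = Affine.Point.some (W' := (kleinCurve u v).toAffine) _ _ (nonsingular_P0 hζ hΔ) :=
  rfl

theorem Q0_eq_some {ζ : F} (hζ : ζ ^ 4 + ζ ^ 3 + ζ ^ 2 + ζ + 1 = 0) {u v : F}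
    (hΔ : (kleinCurve u v).Δ ≠ 0) :
    Q0 hζ hΔ = Affine.Point.some (W' := (kleinCurve u v).toAffine) _ _ (nonsingular_Q0 hζ hΔ) :=
  rfl

variable [DecidableEq F]

/-- **The one real identity of Q2(b)**: `Q0 (T̃ w) = Q0 w − P0 w`. -/
theorem Q0_Ttilde {ζ : F} (hζ : ζ ^ 4 + ζ ^ 3 + ζ ^ 2 + ζ + 1 = 0) {u v : F}
    (hΔ : (kleinCurve u v).Δ ≠ 0) (hx : kxQ ζ u v ≠ kx0 (ks ζ) (u ^ 5) (v ^ 5)) :
    Affine.Point.some _ _ (nonsingular_Q0_Ttilde hζ hΔ) = Q0 hζ hΔ - P0 hζ hΔ := by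
  rw [sub_eq_add_neg, P0_eq_some' hζ hΔ, Q0_eq_some hζ hΔ, Affine.Point.neg_some]
  symm
  refine add_some_short (kleinCurve u v) rfl rfl rfl _ _ _ hx ?_ ?_
  · have e : (kleinCurve u v).toAffine.negY (kx0 (ks ζ) (u ^ 5) (v ^ 5)) (ky0 ζ (u ^ 5) (v ^ 5))
        = -ky0 ζ (u ^ 5) (v ^ 5) := by
      simp [Affine.negY, kleinCurve]
    rw [e, kxQ_eq hζ, kyQ_eq hζ, kxQ_eq hζ, kxCr_eq hζ, kxPr_eq hζ, kyPr_eq hζ, sub_neg_eq_add]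
    exact chord_x hζ u v
  · have e : (kleinCurve u v).toAffine.negY (kx0 (ks ζ) (u ^ 5) (v ^ 5)) (ky0 ζ (u ^ 5) (v ^ 5))
        = -ky0 ζ (u ^ 5) (v ^ 5) := by
      simp [Affine.negY, kleinCurve]
    rw [e, kxQ_eq hζ, kyQ_eq hζ, kxQ_eq hζ, kyQ_eq hζ, kxCr_eq hζ, kyCr_eq hζ, kxPr_eq hζ,
      kyPr_eq hζ, sub_neg_eq_add]
    exact chord_y hζ u v

end Fermat.Agent.G35.Klein.Section
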