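import Fermat.Agent.G35.Klein.Q0

/-!
# GATE-Q (S52) / Q2(b): the ONE real identity `Q0 ∘ T̃ = Q0 − P0` — certificates (helper21)

`T̃ = diag(ζ³, ζ²)`.  All forms are written with coefficients reduced modulo `Φ₅(ζ)` in the basis
`1, ζ, ζ², ζ³`, and every identity is a `linear_combination (cofactor) * hζ`; the cofactors were
computed by exact arithmetic in `ℚ[ζ,u,v]` (division by `Φ₅(ζ)`).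

* `kUS`, `kVS` : `((S w)₁)⁵`, `((S w)₂)⁵` (quintic forms); `kxQr`, `kyQr` : `x(Q0)`, `y(Q0)` (degrees 10, 15) — RATIONAL forms: `ζ` drops out;
  `kxPr`, `kyPr` : `x(P0)`, `y(P0)`; `kxCr`, `kyCr` : `x, y` of `Q0 (T̃ w)`;
* `chord_x`, `chord_y` : the cleared chord-addition identities for `A = Q0 w`, `B = −P0 w`, `C = Q0 (T̃ w)`:
  `(yA − yB)² = (xC + xA + xB)(xA − xB)²`, `yC (xA − xB) + (yA − yB)(xC − xA) + yA (xA − xB) = 0`.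
-/

set_option autoImplicit false

namespace Fermat.Agent.G35.Klein.Section

open Fermat.Agent.G35.Klein

variable {F : Type*} [Field F] [CharZero F]

/-- `((S w)₁)^5`, reduced. -/
def kUS (ζ u v : F) : F :=
    (-(4/25) - (8/25)*ζ - (7/25)*ζ^2 - (1/25)*ζ^3)*u^5 + ((3/5) + (6/5)*ζ + (4/5)*ζ^2 +
      (2/5)*ζ^3)*u^4*v + (-(2/5) - (4/5)*ζ - (6/5)*ζ^2 + (2/5)*ζ^3)*u^3*v^2 + ((4/5) + (8/5)*ζ +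
      (2/5)*ζ^2 + (6/5)*ζ^3)*u^2*v^3 + ((1/5) + (2/5)*ζ - (2/5)*ζ^2 + (4/5)*ζ^3)*u*v^4 + ((3/25)
      + (6/25)*ζ - (1/25)*ζ^2 + (7/25)*ζ^3)*v^5

/-- `((S w)₂)^5`, reduced. -/
def kVS (ζ u v : F) : F :=
    ((3/25) + (6/25)*ζ - (1/25)*ζ^2 + (7/25)*ζ^3)*u^5 + (-(1/5) - (2/5)*ζ + (2/5)*ζ^2 -
      (4/5)*ζ^3)*u^4*v + ((4/5) + (8/5)*ζ + (2/5)*ζ^2 + (6/5)*ζ^3)*u^3*v^2 + ((2/5) + (4/5)*ζ +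
      (6/5)*ζ^2 - (2/5)*ζ^3)*u^2*v^3 + ((3/5) + (6/5)*ζ + (4/5)*ζ^2 + (2/5)*ζ^3)*u*v^4 + ((4/25)
      + (8/25)*ζ + (7/25)*ζ^2 + (1/25)*ζ^3)*v^5

/-- `x(Q0 w)`: a RATIONAL form of degree `10` (no `ζ`). -/
def kxQr (u v : F) : F :=
    3*u^10 + (-36)*u^9*v + 72*u^8*v^2 + (-108)*u^7*v^3 + 180*u^6*v^4 + (-90)*u^5*v^5 + 72*u^4*v^6
      + 36*u^3*v^7 + 36*u^2*v^8 + 3*v^10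

/-- `y(Q0 w)`: a RATIONAL form of degree `15` (no `ζ`). -/
def kyQr (u v : F) : F :=
    108*u^14*v + (-432)*u^13*v^2 + 972*u^12*v^3 + (-1620)*u^11*v^4 + 2700*u^10*v^5 +
      (-3132)*u^9*v^6 + 2268*u^8*v^7 + (-648)*u^7*v^8 + 540*u^6*v^9 + 432*u^4*v^11 +
      (-108)*u^3*v^12 + 108*u^2*v^13

/-- `x(P0 w)`, reduced. -/
def kxPr (ζ u v : F) : F :=
    (-(57/5) + (36/5)*ζ^2 + (36/5)*ζ^3)*u^10 + ((198/5) + (396/5)*ζ^2 + (396/5)*ζ^3)*u^5*v^5 +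
      (-(93/5) - (36/5)*ζ^2 - (36/5)*ζ^3)*v^10

/-- `y(P0 w)`, reduced. -/
def kyPr (ζ u v : F) : F :=
    ((216/5) + (432/5)*ζ + (324/5)*ζ^2 + (108/5)*ζ^3)*u^15 + ((2484/5) + (4968/5)*ζ +
      (3456/5)*ζ^2 + (1512/5)*ζ^3)*u^10*v^5 + ((972/5) + (1944/5)*ζ - (1512/5)*ζ^2 +
      (3456/5)*ζ^3)*u^5*v^10 + (-(108/5) - (216/5)*ζ + (108/5)*ζ^2 - (324/5)*ζ^3)*v^15

/-- `x(Q0 (T̃ w))`, reduced. -/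
def kxCr (ζ u v : F) : F :=
    3*u^10 + (36 + 36*ζ + 36*ζ^2 + 36*ζ^3)*u^9*v + 72*ζ^3*u^8*v^2 + (-108*ζ^2)*u^7*v^3 +
      180*ζ*u^6*v^4 + (-90)*u^5*v^5 + (-72 - 72*ζ - 72*ζ^2 - 72*ζ^3)*u^4*v^6 + 36*ζ^3*u^3*v^7 +
      36*ζ^2*u^2*v^8 + 3*v^10

/-- `y(Q0 (T̃ w))`, reduced. -/
def kyCr (ζ u v : F) : F :=
    (-108 - 108*ζ - 108*ζ^2 - 108*ζ^3)*u^14*v + (-432*ζ^3)*u^13*v^2 + 972*ζ^2*u^12*v^3 +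
      (-1620*ζ)*u^11*v^4 + 2700*u^10*v^5 + (3132 + 3132*ζ + 3132*ζ^2 + 3132*ζ^3)*u^9*v^6 +
      2268*ζ^3*u^8*v^7 + (-648*ζ^2)*u^7*v^8 + 540*ζ*u^6*v^9 + (-432 - 432*ζ - 432*ζ^2 -
      432*ζ^3)*u^4*v^11 + (-108*ζ^3)*u^3*v^12 + 108*ζ^2*u^2*v^13

theorem kUS_eq {ζ : F} (hζ : ζ ^ 4 + ζ ^ 3 + ζ ^ 2 + ζ + 1 = 0) (u v : F) :
    (ks ζ / 5 * KleinInv.Su ζ u v) ^ 5 = kUS ζ u v := by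
  unfold ks KleinInv.Su kUS
  linear_combination
    ((32/3125)*ζ^36*u^5 - (32/3125)*ζ^35*u^5 - (32/625)*ζ^35*u^4*v + (64/625)*ζ^34*u^4*v +
      (64/625)*ζ^34*u^3*v^2 - (32/625)*ζ^33*u^4*v - (192/625)*ζ^33*u^3*v^2 -
      (64/625)*ζ^33*u^2*v^3 + (16/625)*ζ^32*u^5 - (32/625)*ζ^32*u^4*v + (192/625)*ζ^32*u^3*v^2 +
      (256/625)*ζ^32*u^2*v^3 + (32/625)*ζ^32*u*v^4 - (48/3125)*ζ^31*u^5 - (16/625)*ζ^31*u^4*v +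
      (64/625)*ζ^31*u^3*v^2 - (384/625)*ζ^31*u^2*v^3 - (32/125)*ζ^31*u*v^4 - (32/3125)*ζ^31*v^5 -
      (192/3125)*ζ^30*u^5 + (96/625)*ζ^30*u^4*v - (224/625)*ζ^30*u^3*v^2 + (64/625)*ζ^30*u^2*v^3
      + (64/125)*ζ^30*u*v^4 + (192/3125)*ζ^30*v^5 + (16/625)*ζ^29*u^5 + (112/625)*ζ^29*u^4*v -
      (32/625)*ζ^29*u^3*v^2 + (544/625)*ζ^29*u^2*v^3 - (192/625)*ζ^29*u*v^4 - (96/625)*ζ^29*v^5 +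
      (32/625)*ζ^28*u^5 - (288/625)*ζ^28*u^4*v + (32/625)*ζ^28*u^3*v^2 - (576/625)*ζ^28*u^2*v^3 -
      (16/25)*ζ^28*u*v^4 + (96/625)*ζ^28*v^5 + (16/625)*ζ^27*u^4*v + (576/625)*ζ^27*u^3*v^2 +
      (176/125)*ζ^27*u*v^4 + (16/125)*ζ^27*v^5 - (368/3125)*ζ^26*u^5 + (272/625)*ζ^26*u^4*v -
      (128/125)*ζ^26*u^3*v^2 - (96/125)*ζ^26*u*v^4 - (352/625)*ζ^26*v^5 - (32/3125)*ζ^25*u^5 +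
      (16/125)*ζ^25*u^4*v - (96/125)*ζ^25*u^3*v^2 + (128/125)*ζ^25*u^2*v^3 - (16/25)*ζ^25*u*v^4 +
      (368/625)*ζ^25*v^5 + (24/125)*ζ^24*u^5 - (64/125)*ζ^24*u^4*v + (192/125)*ζ^24*u^3*v^2 -
      (32/125)*ζ^24*u^2*v^3 + (112/125)*ζ^24*u*v^4 + (64/625)*ζ^24*v^5 + (24/625)*ζ^23*u^5 -
      (72/125)*ζ^23*u^4*v + (32/125)*ζ^23*u^3*v^2 - (288/125)*ζ^23*u^2*v^3 - (16/125)*ζ^23*u*v^4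
      - (544/625)*ζ^23*v^5 - (96/625)*ζ^22*u^5 + (112/125)*ζ^22*u^4*v - (16/25)*ζ^22*u^3*v^2 +
      (288/125)*ζ^22*u^2*v^3 + (48/125)*ζ^22*u*v^4 + (496/625)*ζ^22*v^5 - (328/3125)*ζ^21*u^5 +
      (56/125)*ζ^21*u^4*v - (176/125)*ζ^21*u^3*v^2 + (16/25)*ζ^21*u^2*v^3 - (176/125)*ζ^21*u*v^4
      + (578/3125)*ζ^20*u^5 - (512/625)*ζ^20*u^4*v + (144/125)*ζ^20*u^3*v^2 -
      (192/125)*ζ^20*u^2*v^3 + (88/125)*ζ^20*u*v^4 - (64/125)*ζ^20*v^5 + (118/625)*ζ^19*u^5 -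
      (346/625)*ζ^19*u^4*v + (1184/625)*ζ^19*u^3*v^2 - (32/125)*ζ^19*u^2*v^3 +
      (184/125)*ζ^19*u*v^4 + (232/625)*ζ^19*v^5 - (128/625)*ζ^18*u^5 + (268/625)*ζ^18*u^4*v -
      (1212/625)*ζ^18*u^3*v^2 - (64/625)*ζ^18*u^2*v^3 - (256/125)*ζ^18*u*v^4 - (96/625)*ζ^18*v^5
      - (144/625)*ζ^17*u^5 + (718/625)*ζ^17*u^4*v - (508/625)*ζ^17*u^3*v^2 +
      (1436/625)*ζ^17*u^2*v^3 + (392/625)*ζ^17*u*v^4 + (24/125)*ζ^17*v^5 + (193/3125)*ζ^16*u^5 -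
      (266/625)*ζ^16*u^4*v + (284/625)*ζ^16*u^3*v^2 - (864/625)*ζ^16*u^2*v^3 +
      (34/125)*ζ^16*u*v^4 - (512/3125)*ζ^16*v^5 + (777/3125)*ζ^15*u^5 - (129/125)*ζ^15*u^4*v +
      (756/625)*ζ^15*u^3*v^2 - (856/625)*ζ^15*u^2*v^3 - (26/125)*ζ^15*u*v^4 - (258/3125)*ζ^15*v^5
      + (24/625)*ζ^14*u^5 + (134/625)*ζ^14*u^4*v + (2/5)*ζ^14*u^3*v^2 + (964/625)*ζ^14*u^2*v^3 +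
      (388/625)*ζ^14*u*v^4 + (36/125)*ζ^14*v^5 - (171/625)*ζ^13*u^5 + (391/625)*ζ^13*u^4*v -
      (1274/625)*ζ^13*u^3*v^2 - (358/625)*ζ^13*u^2*v^3 - (148/125)*ζ^13*u*v^4 -
      (206/625)*ζ^13*v^5 - (11/125)*ζ^12*u^5 + (66/125)*ζ^12*u^4*v + (242/625)*ζ^12*u^3*v^2 +
      (668/625)*ζ^12*u^2*v^3 + (531/625)*ζ^12*u*v^4 + (174/625)*ζ^12*v^5 + (553/3125)*ζ^11*u^5 -
      (446/625)*ζ^11*u^4*v + (372/625)*ζ^11*u^3*v^2 - (552/625)*ζ^11*u^2*v^3 - (1/5)*ζ^11*u*v^4 -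
      (371/3125)*ζ^11*v^5 + (627/3125)*ζ^10*u^5 - (437/625)*ζ^10*u^4*v + (278/625)*ζ^10*u^3*v^2 -
      (488/625)*ζ^10*u^2*v^3 - (26/125)*ζ^10*u*v^4 - (374/3125)*ζ^10*v^5 - (18/625)*ζ^9*u^5 +
      (256/625)*ζ^9*u^4*v + (224/625)*ζ^9*u^3*v^2 + (762/625)*ζ^9*u^2*v^3 + (499/625)*ζ^9*u*v^4 +
      (7/25)*ζ^9*v^5 - (157/625)*ζ^8*u^5 + (271/625)*ζ^8*u^4*v - (1014/625)*ζ^8*u^3*v^2 -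
      (498/625)*ζ^8*u^2*v^3 - (6/5)*ζ^8*u*v^4 - (8/25)*ζ^8*v^5 - (31/625)*ζ^7*u^5 +
      (258/625)*ζ^7*u^4*v + (248/625)*ζ^7*u^3*v^2 + (6/5)*ζ^7*u^2*v^3 + (4/5)*ζ^7*u*v^4 +
      (7/25)*ζ^7*v^5 + (491/3125)*ζ^6*u^5 - (374/625)*ζ^6*u^4*v + (2/5)*ζ^6*u^3*v^2 -
      (4/5)*ζ^6*u^2*v^3 - (1/5)*ζ^6*u*v^4 - (3/25)*ζ^6*v^5 + (499/3125)*ζ^5*u^5 - (3/5)*ζ^5*u^4*v
      + (2/5)*ζ^5*u^3*v^2 - (4/5)*ζ^5*u^2*v^3 - (1/5)*ζ^5*u*v^4 - (3/25)*ζ^5*v^5 - (1/25)*ζ^4*u^5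
      + (2/5)*ζ^4*u^4*v + (2/5)*ζ^4*u^3*v^2 + (6/5)*ζ^4*u^2*v^3 + (4/5)*ζ^4*u*v^4 +
      (7/25)*ζ^4*v^5 - (6/25)*ζ^3*u^5 + (2/5)*ζ^3*u^4*v - (8/5)*ζ^3*u^3*v^2 - (4/5)*ζ^3*u^2*v^3 -
      (6/5)*ζ^3*u*v^4 - (8/25)*ζ^3*v^5 - (1/25)*ζ^2*u^5 + (2/5)*ζ^2*u^4*v + (2/5)*ζ^2*u^3*v^2 +
      (6/5)*ζ^2*u^2*v^3 + (4/5)*ζ^2*u*v^4 + (7/25)*ζ^2*v^5 + (4/25)*ζ*u^5 - (3/5)*ζ*u^4*v +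
      (2/5)*ζ*u^3*v^2 - (4/5)*ζ*u^2*v^3 - (1/5)*ζ*u*v^4 - (3/25)*ζ*v^5 + (4/25)*u^5 - (3/5)*u^4*v
      + (2/5)*u^3*v^2 - (4/5)*u^2*v^3 - (1/5)*u*v^4 - (3/25)*v^5) * hζ

theorem kVS_eq {ζ : F} (hζ : ζ ^ 4 + ζ ^ 3 + ζ ^ 2 + ζ + 1 = 0) (u v : F) :
    (ks ζ / 5 * KleinInv.Sv ζ u v) ^ 5 = kVS ζ u v := by
  unfold ks KleinInv.Sv kVS
  linear_combination
    (-(32/3125)*ζ^36*v^5 - (32/625)*ζ^35*u*v^4 + (32/3125)*ζ^35*v^5 - (64/625)*ζ^34*u^2*v^3 +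
      (64/625)*ζ^34*u*v^4 - (64/625)*ζ^33*u^3*v^2 + (192/625)*ζ^33*u^2*v^3 - (32/625)*ζ^33*u*v^4
      - (32/625)*ζ^32*u^4*v + (256/625)*ζ^32*u^3*v^2 - (192/625)*ζ^32*u^2*v^3 -
      (32/625)*ζ^32*u*v^4 - (16/625)*ζ^32*v^5 - (32/3125)*ζ^31*u^5 + (32/125)*ζ^31*u^4*v -
      (384/625)*ζ^31*u^3*v^2 - (64/625)*ζ^31*u^2*v^3 - (16/625)*ζ^31*u*v^4 + (48/3125)*ζ^31*v^5 +
      (192/3125)*ζ^30*u^5 - (64/125)*ζ^30*u^4*v + (64/625)*ζ^30*u^3*v^2 + (224/625)*ζ^30*u^2*v^3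
      + (96/625)*ζ^30*u*v^4 + (192/3125)*ζ^30*v^5 - (96/625)*ζ^29*u^5 + (192/625)*ζ^29*u^4*v +
      (544/625)*ζ^29*u^3*v^2 + (32/625)*ζ^29*u^2*v^3 + (112/625)*ζ^29*u*v^4 - (16/625)*ζ^29*v^5 +
      (96/625)*ζ^28*u^5 + (16/25)*ζ^28*u^4*v - (576/625)*ζ^28*u^3*v^2 - (32/625)*ζ^28*u^2*v^3 -
      (288/625)*ζ^28*u*v^4 - (32/625)*ζ^28*v^5 + (16/125)*ζ^27*u^5 - (176/125)*ζ^27*u^4*v -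
      (576/625)*ζ^27*u^2*v^3 + (16/625)*ζ^27*u*v^4 - (352/625)*ζ^26*u^5 + (96/125)*ζ^26*u^4*v +
      (128/125)*ζ^26*u^2*v^3 + (272/625)*ζ^26*u*v^4 + (368/3125)*ζ^26*v^5 + (368/625)*ζ^25*u^5 +
      (16/25)*ζ^25*u^4*v + (128/125)*ζ^25*u^3*v^2 + (96/125)*ζ^25*u^2*v^3 + (16/125)*ζ^25*u*v^4 +
      (32/3125)*ζ^25*v^5 + (64/625)*ζ^24*u^5 - (112/125)*ζ^24*u^4*v - (32/125)*ζ^24*u^3*v^2 -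
      (192/125)*ζ^24*u^2*v^3 - (64/125)*ζ^24*u*v^4 - (24/125)*ζ^24*v^5 - (544/625)*ζ^23*u^5 +
      (16/125)*ζ^23*u^4*v - (288/125)*ζ^23*u^3*v^2 - (32/125)*ζ^23*u^2*v^3 - (72/125)*ζ^23*u*v^4
      - (24/625)*ζ^23*v^5 + (496/625)*ζ^22*u^5 - (48/125)*ζ^22*u^4*v + (288/125)*ζ^22*u^3*v^2 +
      (16/25)*ζ^22*u^2*v^3 + (112/125)*ζ^22*u*v^4 + (96/625)*ζ^22*v^5 + (176/125)*ζ^21*u^4*v +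
      (16/25)*ζ^21*u^3*v^2 + (176/125)*ζ^21*u^2*v^3 + (56/125)*ζ^21*u*v^4 + (328/3125)*ζ^21*v^5 -
      (64/125)*ζ^20*u^5 - (88/125)*ζ^20*u^4*v - (192/125)*ζ^20*u^3*v^2 - (144/125)*ζ^20*u^2*v^3 -
      (512/625)*ζ^20*u*v^4 - (578/3125)*ζ^20*v^5 + (232/625)*ζ^19*u^5 - (184/125)*ζ^19*u^4*v -
      (32/125)*ζ^19*u^3*v^2 - (1184/625)*ζ^19*u^2*v^3 - (346/625)*ζ^19*u*v^4 - (118/625)*ζ^19*v^5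
      - (96/625)*ζ^18*u^5 + (256/125)*ζ^18*u^4*v - (64/625)*ζ^18*u^3*v^2 +
      (1212/625)*ζ^18*u^2*v^3 + (268/625)*ζ^18*u*v^4 + (128/625)*ζ^18*v^5 + (24/125)*ζ^17*u^5 -
      (392/625)*ζ^17*u^4*v + (1436/625)*ζ^17*u^3*v^2 + (508/625)*ζ^17*u^2*v^3 +
      (718/625)*ζ^17*u*v^4 + (144/625)*ζ^17*v^5 - (512/3125)*ζ^16*u^5 - (34/125)*ζ^16*u^4*v -
      (864/625)*ζ^16*u^3*v^2 - (284/625)*ζ^16*u^2*v^3 - (266/625)*ζ^16*u*v^4 -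
      (193/3125)*ζ^16*v^5 - (258/3125)*ζ^15*u^5 + (26/125)*ζ^15*u^4*v - (856/625)*ζ^15*u^3*v^2 -
      (756/625)*ζ^15*u^2*v^3 - (129/125)*ζ^15*u*v^4 - (777/3125)*ζ^15*v^5 + (36/125)*ζ^14*u^5 -
      (388/625)*ζ^14*u^4*v + (964/625)*ζ^14*u^3*v^2 - (2/5)*ζ^14*u^2*v^3 + (134/625)*ζ^14*u*v^4 -
      (24/625)*ζ^14*v^5 - (206/625)*ζ^13*u^5 + (148/125)*ζ^13*u^4*v - (358/625)*ζ^13*u^3*v^2 +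
      (1274/625)*ζ^13*u^2*v^3 + (391/625)*ζ^13*u*v^4 + (171/625)*ζ^13*v^5 + (174/625)*ζ^12*u^5 -
      (531/625)*ζ^12*u^4*v + (668/625)*ζ^12*u^3*v^2 - (242/625)*ζ^12*u^2*v^3 +
      (66/125)*ζ^12*u*v^4 + (11/125)*ζ^12*v^5 - (371/3125)*ζ^11*u^5 + (1/5)*ζ^11*u^4*v -
      (552/625)*ζ^11*u^3*v^2 - (372/625)*ζ^11*u^2*v^3 - (446/625)*ζ^11*u*v^4 -
      (553/3125)*ζ^11*v^5 - (374/3125)*ζ^10*u^5 + (26/125)*ζ^10*u^4*v - (488/625)*ζ^10*u^3*v^2 -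
      (278/625)*ζ^10*u^2*v^3 - (437/625)*ζ^10*u*v^4 - (627/3125)*ζ^10*v^5 + (7/25)*ζ^9*u^5 -
      (499/625)*ζ^9*u^4*v + (762/625)*ζ^9*u^3*v^2 - (224/625)*ζ^9*u^2*v^3 + (256/625)*ζ^9*u*v^4 +
      (18/625)*ζ^9*v^5 - (8/25)*ζ^8*u^5 + (6/5)*ζ^8*u^4*v - (498/625)*ζ^8*u^3*v^2 +
      (1014/625)*ζ^8*u^2*v^3 + (271/625)*ζ^8*u*v^4 + (157/625)*ζ^8*v^5 + (7/25)*ζ^7*u^5 -
      (4/5)*ζ^7*u^4*v + (6/5)*ζ^7*u^3*v^2 - (248/625)*ζ^7*u^2*v^3 + (258/625)*ζ^7*u*v^4 +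
      (31/625)*ζ^7*v^5 - (3/25)*ζ^6*u^5 + (1/5)*ζ^6*u^4*v - (4/5)*ζ^6*u^3*v^2 - (2/5)*ζ^6*u^2*v^3
      - (374/625)*ζ^6*u*v^4 - (491/3125)*ζ^6*v^5 - (3/25)*ζ^5*u^5 + (1/5)*ζ^5*u^4*v -
      (4/5)*ζ^5*u^3*v^2 - (2/5)*ζ^5*u^2*v^3 - (3/5)*ζ^5*u*v^4 - (499/3125)*ζ^5*v^5 +
      (7/25)*ζ^4*u^5 - (4/5)*ζ^4*u^4*v + (6/5)*ζ^4*u^3*v^2 - (2/5)*ζ^4*u^2*v^3 + (2/5)*ζ^4*u*v^4
      + (1/25)*ζ^4*v^5 - (8/25)*ζ^3*u^5 + (6/5)*ζ^3*u^4*v - (4/5)*ζ^3*u^3*v^2 + (8/5)*ζ^3*u^2*v^3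
      + (2/5)*ζ^3*u*v^4 + (6/25)*ζ^3*v^5 + (7/25)*ζ^2*u^5 - (4/5)*ζ^2*u^4*v + (6/5)*ζ^2*u^3*v^2 -
      (2/5)*ζ^2*u^2*v^3 + (2/5)*ζ^2*u*v^4 + (1/25)*ζ^2*v^5 - (3/25)*ζ*u^5 + (1/5)*ζ*u^4*v -
      (4/5)*ζ*u^3*v^2 - (2/5)*ζ*u^2*v^3 - (3/5)*ζ*u*v^4 - (4/25)*ζ*v^5 - (3/25)*u^5 + (1/5)*u^4*v
      - (4/5)*u^3*v^2 - (2/5)*u^2*v^3 - (3/5)*u*v^4 - (4/25)*v^5) * hζ

theorem kxQr_eq {ζ : F} (hζ : ζ ^ 4 + ζ ^ 3 + ζ ^ 2 + ζ + 1 = 0) (u v : F) :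
    kx0 (ks ζ) (kUS ζ u v) (kVS ζ u v) = kxQr u v := by
  unfold kx0 ks kUS kVS kxQr
  linear_combination
    ((36/25)*ζ^6*u^10 - (72/5)*ζ^6*u^9*v + (144/5)*ζ^6*u^8*v^2 - (288/5)*ζ^6*u^7*v^3 +
      (216/5)*ζ^6*u^6*v^4 - (2304/25)*ζ^6*u^5*v^5 - (216/5)*ζ^6*u^4*v^6 - (288/5)*ζ^6*u^3*v^7 -
      (144/5)*ζ^6*u^2*v^8 - (72/5)*ζ^6*u*v^9 - (36/25)*ζ^6*v^10 + (108/25)*ζ^5*u^10 -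
      (72/5)*ζ^5*u^9*v + (288/5)*ζ^5*u^8*v^2 - (576/5)*ζ^5*u^7*v^3 + (216/5)*ζ^5*u^6*v^4 -
      (3312/25)*ζ^5*u^5*v^5 - (216/5)*ζ^5*u^4*v^6 - (576/5)*ζ^5*u^3*v^7 - (288/5)*ζ^5*u^2*v^8 -
      (72/5)*ζ^5*u*v^9 - (108/25)*ζ^5*v^10 + (36/25)*ζ^4*u^10 - (72/5)*ζ^4*u^9*v +
      (144/5)*ζ^4*u^8*v^2 - (288/5)*ζ^4*u^7*v^3 + (216/5)*ζ^4*u^6*v^4 - (2304/25)*ζ^4*u^5*v^5 -
      (216/5)*ζ^4*u^4*v^6 - (288/5)*ζ^4*u^3*v^7 - (144/5)*ζ^4*u^2*v^8 - (72/5)*ζ^4*u*v^9 -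
      (36/25)*ζ^4*v^10 + (36/25)*ζ^3*u^10 + (72/5)*ζ^3*u^8*v^2 - (144/5)*ζ^3*u^7*v^3 -
      (504/25)*ζ^3*u^5*v^5 - (144/5)*ζ^3*u^3*v^7 - (72/5)*ζ^3*u^2*v^8 - (36/25)*ζ^3*v^10 +
      (96/25)*ζ^2*u^10 - (72/5)*ζ^2*u^9*v + (252/5)*ζ^2*u^8*v^2 - (576/5)*ζ^2*u^7*v^3 +
      (72/5)*ζ^2*u^6*v^4 - (4464/25)*ζ^2*u^5*v^5 - (576/5)*ζ^2*u^4*v^6 - (864/5)*ζ^2*u^3*v^7 -
      (468/5)*ζ^2*u^2*v^8 - (144/5)*ζ^2*u*v^9 - (156/25)*ζ^2*v^10 + (24/5)*ζ*u^10 -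
      (216/5)*ζ*u^9*v + (468/5)*ζ*u^8*v^2 - (864/5)*ζ*u^7*v^3 + (792/5)*ζ*u^6*v^4 -
      (1152/5)*ζ*u^5*v^5 - (288/5)*ζ*u^4*v^6 - (576/5)*ζ*u^3*v^7 - (252/5)*ζ*u^2*v^8 -
      (144/5)*ζ*u*v^9 - (12/5)*ζ*v^10 - (72/25)*u^10 + 36*u^9*v - 72*u^8*v^2 + (504/5)*u^7*v^3 -
      (972/5)*u^6*v^4 + (1548/25)*u^5*v^5 - 108*u^4*v^6 - 72*u^3*v^7 - (288/5)*u^2*v^8 -
      (36/5)*u*v^9 - (108/25)*v^10) * hζ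

set_option maxHeartbeats 1000000 in
theorem kyQr_eq {ζ : F} (hζ : ζ ^ 4 + ζ ^ 3 + ζ ^ 2 + ζ + 1 = 0) (u v : F) :
    ky0 ζ (kUS ζ u v) (kVS ζ u v) = kyQr u v := by
  unfold ky0 kC kw ks kUS kVS kyQr
  linear_combination
    (-(324/125)*ζ^13*u^15 + (864/25)*ζ^13*u^14*v - (3672/25)*ζ^13*u^13*v^2 +
      (9288/25)*ζ^13*u^12*v^3 - (17064/25)*ζ^13*u^11*v^4 + (118044/125)*ζ^13*u^10*v^5 -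
      (27216/25)*ζ^13*u^9*v^6 + (16848/25)*ζ^13*u^8*v^7 - (15552/25)*ζ^13*u^7*v^8 -
      (864/25)*ζ^13*u^6*v^9 - (38988/125)*ζ^13*u^5*v^10 - (3024/25)*ζ^13*u^4*v^11 -
      (2808/25)*ζ^13*u^3*v^12 - (648/25)*ζ^13*u^2*v^13 - (216/25)*ζ^13*u*v^14 -
      (108/125)*ζ^13*v^15 - (216/25)*ζ^12*u^15 + (1512/25)*ζ^12*u^14*v - (6048/25)*ζ^12*u^13*v^2
      + (3888/5)*ζ^12*u^12*v^3 - (33048/25)*ζ^12*u^11*v^4 + (46224/25)*ζ^12*u^10*v^5 -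
      (42768/25)*ζ^12*u^9*v^6 + (41472/25)*ζ^12*u^8*v^7 - (2592/5)*ζ^12*u^7*v^8 +
      (30672/25)*ζ^12*u^6*v^9 + (11016/25)*ζ^12*u^5*v^10 + (9288/25)*ζ^12*u^4*v^11 +
      (6048/25)*ζ^12*u^3*v^12 + (432/5)*ζ^12*u^2*v^13 + (648/25)*ζ^12*u*v^14 - (216/25)*ζ^11*u^15
      + (432/5)*ζ^11*u^14*v - (9504/25)*ζ^11*u^13*v^2 + (24624/25)*ζ^11*u^12*v^3 -
      (44928/25)*ζ^11*u^11*v^4 + (67608/25)*ζ^11*u^10*v^5 - (10368/5)*ζ^11*u^9*v^6 +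
      (79056/25)*ζ^11*u^8*v^7 + (11664/25)*ζ^11*u^7*v^8 + (67392/25)*ζ^11*u^6*v^9 +
      (9288/5)*ζ^11*u^5*v^10 + (8208/5)*ζ^11*u^4*v^11 + (20304/25)*ζ^11*u^3*v^12 +
      (7776/25)*ζ^11*u^2*v^13 + (1728/25)*ζ^11*u*v^14 + (216/25)*ζ^11*v^15 - (324/25)*ζ^10*u^15 +
      (324/5)*ζ^10*u^14*v - (6912/25)*ζ^10*u^13*v^2 + (23112/25)*ζ^10*u^12*v^3 -
      (40284/25)*ζ^10*u^11*v^4 + (11664/5)*ζ^10*u^10*v^5 - (6696/5)*ζ^10*u^9*v^6 +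
      (75168/25)*ζ^10*u^8*v^7 + (22032/25)*ζ^10*u^7*v^8 + (88776/25)*ζ^10*u^6*v^9 +
      (62748/25)*ζ^10*u^5*v^10 + (9396/5)*ζ^10*u^4*v^11 + (28512/25)*ζ^10*u^3*v^12 +
      (9288/25)*ζ^10*u^2*v^13 + (2484/25)*ζ^10*u*v^14 + (216/25)*ζ^10*v^15 - (972/125)*ζ^9*u^15 +
      (1404/25)*ζ^9*u^14*v - (6912/25)*ζ^9*u^13*v^2 + (16632/25)*ζ^9*u^12*v^3 -
      (35316/25)*ζ^9*u^11*v^4 + (218592/125)*ζ^9*u^10*v^5 - (43416/25)*ζ^9*u^9*v^6 +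
      (36288/25)*ζ^9*u^8*v^7 - (29808/25)*ζ^9*u^7*v^8 + (1944/25)*ζ^9*u^6*v^9 -
      (55404/125)*ζ^9*u^5*v^10 - (2484/25)*ζ^9*u^4*v^11 - (1728/25)*ζ^9*u^3*v^12 -
      (1512/25)*ζ^9*u^2*v^13 - (324/25)*ζ^9*u*v^14 + (216/125)*ζ^9*v^15 - (216/125)*ζ^8*u^15 +
      (972/25)*ζ^8*u^14*v - (4104/25)*ζ^8*u^13*v^2 + (9504/25)*ζ^8*u^12*v^3 -
      (18684/25)*ζ^8*u^11*v^4 + (106596/125)*ζ^8*u^10*v^5 - (41688/25)*ζ^8*u^9*v^6 -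
      (5184/25)*ζ^8*u^8*v^7 - (53136/25)*ζ^8*u^7*v^8 - (49464/25)*ζ^8*u^6*v^9 -
      (272592/125)*ζ^8*u^5*v^10 - (36612/25)*ζ^8*u^4*v^11 - (21816/25)*ζ^8*u^3*v^12 -
      (7344/25)*ζ^8*u^2*v^13 - (1836/25)*ζ^8*u*v^14 - (972/125)*ζ^8*v^15 - (756/125)*ζ^7*u^15 +
      (324/25)*ζ^7*u^14*v - (1404/25)*ζ^7*u^13*v^2 + (6696/25)*ζ^7*u^12*v^3 -
      (13716/25)*ζ^7*u^11*v^4 + (46656/125)*ζ^7*u^10*v^5 - (21816/25)*ζ^7*u^9*v^6 -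
      (13284/25)*ζ^7*u^8*v^7 - (48924/25)*ζ^7*u^7*v^8 - (38016/25)*ζ^7*u^6*v^9 -
      (231552/125)*ζ^7*u^5*v^10 - (35964/25)*ζ^7*u^4*v^11 - (16416/25)*ζ^7*u^3*v^12 -
      (7236/25)*ζ^7*u^2*v^13 - (1404/25)*ζ^7*u*v^14 - (972/125)*ζ^7*v^15 - (108/125)*ζ^6*u^15 +
      (2268/25)*ζ^6*u^14*v - (8208/25)*ζ^6*u^13*v^2 + 864*ζ^6*u^12*v^3 - (33156/25)*ζ^6*u^11*v^4
      + (256608/125)*ζ^6*u^10*v^5 - (78192/25)*ζ^6*u^9*v^6 + (18792/25)*ζ^6*u^8*v^7 -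
      (10368/5)*ζ^6*u^7*v^8 - (31536/25)*ζ^6*u^6*v^9 - (228636/125)*ζ^6*u^5*v^10 -
      (28188/25)*ζ^6*u^4*v^11 - (20952/25)*ζ^6*u^3*v^12 - (864/5)*ζ^6*u^2*v^13 -
      (1404/25)*ζ^6*u*v^14 - (1296/125)*ζ^6*v^15 + (108/25)*ζ^5*u^15 - (2808/25)*ζ^5*u^14*v +
      (12204/25)*ζ^5*u^13*v^2 - (27432/25)*ζ^5*u^12*v^3 + (49896/25)*ζ^5*u^11*v^4 -
      (79596/25)*ζ^5*u^10*v^5 + (71712/25)*ζ^5*u^9*v^6 - (87156/25)*ζ^5*u^8*v^7 -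
      (7452/25)*ζ^5*u^7*v^8 - (55944/25)*ζ^5*u^6*v^9 - (38232/25)*ζ^5*u^5*v^10 -
      (40392/25)*ζ^5*u^4*v^11 - (14904/25)*ζ^5*u^3*v^12 - (7668/25)*ζ^5*u^2*v^13 -
      (1296/25)*ζ^5*u*v^14 - (216/25)*ζ^5*v^15 + (2592/125)*ζ^4*u^15 - (3672/25)*ζ^4*u^14*v +
      (15444/25)*ζ^4*u^13*v^2 - (46332/25)*ζ^4*u^12*v^3 + (82728/25)*ζ^4*u^11*v^4 -
      (565272/125)*ζ^4*u^10*v^5 + (104868/25)*ζ^4*u^9*v^6 - (101736/25)*ζ^4*u^8*v^7 +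
      (37908/25)*ζ^4*u^7*v^8 - (63612/25)*ζ^4*u^6*v^9 - (94716/125)*ζ^4*u^5*v^10 -
      (19548/25)*ζ^4*u^4*v^11 - (12204/25)*ζ^4*u^3*v^12 - (3888/25)*ζ^4*u^2*v^13 -
      (1188/25)*ζ^4*u*v^14 - (216/125)*ζ^4*v^15 + (432/25)*ζ^3*u^15 - (3564/25)*ζ^3*u^14*v +
      (14688/25)*ζ^3*u^13*v^2 - (43092/25)*ζ^3*u^12*v^3 + (15444/5)*ζ^3*u^11*v^4 -
      (100764/25)*ζ^3*u^10*v^5 + (117396/25)*ζ^3*u^9*v^6 - (62532/25)*ζ^3*u^8*v^7 +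
      (84888/25)*ζ^3*u^7*v^8 + (1404/5)*ζ^3*u^6*v^9 + (45792/25)*ζ^3*u^5*v^10 +
      (27864/25)*ζ^3*u^4*v^11 + (15012/25)*ζ^3*u^3*v^12 + (5292/25)*ζ^3*u^2*v^13 +
      (216/5)*ζ^3*u*v^14 + (216/25)*ζ^3*v^15 + (756/125)*ζ^2*u^15 - (1404/25)*ζ^2*u^14*v +
      (5724/25)*ζ^2*u^13*v^2 - (16416/25)*ζ^2*u^12*v^3 + (29916/25)*ζ^2*u^11*v^4 -
      (181656/125)*ζ^2*u^10*v^5 + (53136/25)*ζ^2*u^9*v^6 - (9396/25)*ζ^2*u^8*v^7 +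
      (55404/25)*ζ^2*u^7*v^8 + (32616/25)*ζ^2*u^6*v^9 + (231552/125)*ζ^2*u^5*v^10 +
      (31644/25)*ζ^2*u^4*v^11 + (17496/25)*ζ^2*u^3*v^12 + (6156/25)*ζ^2*u^2*v^13 +
      (1404/25)*ζ^2*u*v^14 + (972/125)*ζ^2*v^15 + (108/125)*ζ*u^15 + (2484/25)*ζ*u^14*v -
      (9936/25)*ζ*u^13*v^2 + (21816/25)*ζ*u^12*v^3 - (35964/25)*ζ*u^11*v^4 +
      (311472/125)*ζ*u^10*v^5 - (69336/25)*ζ*u^9*v^6 + (57024/25)*ζ*u^8*v^7 - (5184/25)*ζ*u^7*v^8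
      + (21816/25)*ζ*u^6*v^9 + (51516/125)*ζ*u^5*v^10 + (18036/25)*ζ*u^4*v^11 +
      (1296/25)*ζ*u^3*v^12 + (4104/25)*ζ*u^2*v^13 + (324/25)*ζ*u*v^14 + (216/125)*ζ*v^15 -
      108*u^14*v + 432*u^13*v^2 - 972*u^12*v^3 + 1620*u^11*v^4 - 2700*u^10*v^5 + 3132*u^9*v^6 -
      2268*u^8*v^7 + 648*u^7*v^8 - 540*u^6*v^9 - 432*u^4*v^11 + 108*u^3*v^12 - 108*u^2*v^13) * hζ

theorem kxPr_eq {ζ : F} (hζ : ζ ^ 4 + ζ ^ 3 + ζ ^ 2 + ζ + 1 = 0) (u v : F) :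
    kx0 (ks ζ) (u ^ 5) (v ^ 5) = kxPr ζ u v := by
  unfold kx0 ks kxPr
  linear_combination
    (-(36/5)*u^10 - (396/5)*u^5*v^5 + (36/5)*v^10) * hζ

theorem kyPr_eq {ζ : F} (hζ : ζ ^ 4 + ζ ^ 3 + ζ ^ 2 + ζ + 1 = 0) (u v : F) :
    ky0 ζ (u ^ 5) (v ^ 5) = kyPr ζ u v := by
  unfold ky0 kC kw ks kyPr
  linear_combination
    (-(108/5)*ζ^4*u^15 - (972/5)*ζ^4*u^10*v^5 + (2484/5)*ζ^4*u^5*v^10 - (216/5)*ζ^4*v^15 +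
      (108/5)*ζ^3*u^15 + (972/5)*ζ^3*u^10*v^5 - (2484/5)*ζ^3*u^5*v^10 + (216/5)*ζ^3*v^15 -
      (216/5)*u^15 - (2484/5)*u^10*v^5 - (972/5)*u^5*v^10 + (108/5)*v^15) * hζ

set_option maxHeartbeats 1000000 in
omit [CharZero F] in
theorem kxCr_eq {ζ : F} (hζ : ζ ^ 4 + ζ ^ 3 + ζ ^ 2 + ζ + 1 = 0) (u v : F) :
    kxQr (ζ ^ 3 * u) (ζ ^ 2 * v) = kxCr ζ u v := by
  unfold kxQr kxCr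
  linear_combination
    (3*ζ^26*u^10 - 3*ζ^25*u^10 - 36*ζ^25*u^9*v + 36*ζ^24*u^9*v + 72*ζ^24*u^8*v^2 - 72*ζ^23*u^8*v^2
      - 108*ζ^23*u^7*v^3 + 108*ζ^22*u^7*v^3 + 180*ζ^22*u^6*v^4 + 3*ζ^21*u^10 - 180*ζ^21*u^6*v^4 -
      90*ζ^21*u^5*v^5 - 3*ζ^20*u^10 - 36*ζ^20*u^9*v + 90*ζ^20*u^5*v^5 + 72*ζ^20*u^4*v^6 +
      36*ζ^19*u^9*v + 72*ζ^19*u^8*v^2 - 72*ζ^19*u^4*v^6 + 36*ζ^19*u^3*v^7 - 72*ζ^18*u^8*v^2 -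
      108*ζ^18*u^7*v^3 - 36*ζ^18*u^3*v^7 + 36*ζ^18*u^2*v^8 + 108*ζ^17*u^7*v^3 + 180*ζ^17*u^6*v^4
      - 36*ζ^17*u^2*v^8 + 3*ζ^16*u^10 - 180*ζ^16*u^6*v^4 - 90*ζ^16*u^5*v^5 + 3*ζ^16*v^10 -
      3*ζ^15*u^10 - 36*ζ^15*u^9*v + 90*ζ^15*u^5*v^5 + 72*ζ^15*u^4*v^6 - 3*ζ^15*v^10 +
      36*ζ^14*u^9*v + 72*ζ^14*u^8*v^2 - 72*ζ^14*u^4*v^6 + 36*ζ^14*u^3*v^7 - 72*ζ^13*u^8*v^2 -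
      108*ζ^13*u^7*v^3 - 36*ζ^13*u^3*v^7 + 36*ζ^13*u^2*v^8 + 108*ζ^12*u^7*v^3 + 180*ζ^12*u^6*v^4
      - 36*ζ^12*u^2*v^8 + 3*ζ^11*u^10 - 180*ζ^11*u^6*v^4 - 90*ζ^11*u^5*v^5 + 3*ζ^11*v^10 -
      3*ζ^10*u^10 - 36*ζ^10*u^9*v + 90*ζ^10*u^5*v^5 + 72*ζ^10*u^4*v^6 - 3*ζ^10*v^10 +
      36*ζ^9*u^9*v + 72*ζ^9*u^8*v^2 - 72*ζ^9*u^4*v^6 + 36*ζ^9*u^3*v^7 - 72*ζ^8*u^8*v^2 -
      108*ζ^8*u^7*v^3 - 36*ζ^8*u^3*v^7 + 36*ζ^8*u^2*v^8 + 108*ζ^7*u^7*v^3 + 180*ζ^7*u^6*v^4 -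
      36*ζ^7*u^2*v^8 + 3*ζ^6*u^10 - 180*ζ^6*u^6*v^4 - 90*ζ^6*u^5*v^5 + 3*ζ^6*v^10 - 3*ζ^5*u^10 -
      36*ζ^5*u^9*v + 90*ζ^5*u^5*v^5 + 72*ζ^5*u^4*v^6 - 3*ζ^5*v^10 + 36*ζ^4*u^9*v + 72*ζ^4*u^8*v^2
      - 72*ζ^4*u^4*v^6 + 36*ζ^4*u^3*v^7 - 72*ζ^3*u^8*v^2 - 108*ζ^3*u^7*v^3 - 36*ζ^3*u^3*v^7 +
      36*ζ^3*u^2*v^8 + 108*ζ^2*u^7*v^3 + 180*ζ^2*u^6*v^4 - 36*ζ^2*u^2*v^8 + 3*ζ*u^10 -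
      180*ζ*u^6*v^4 - 90*ζ*u^5*v^5 + 3*ζ*v^10 - 3*u^10 - 36*u^9*v + 90*u^5*v^5 + 72*u^4*v^6 -
      3*v^10) * hζ

set_option maxHeartbeats 1000000 in
omit [CharZero F] in
theorem kyCr_eq {ζ : F} (hζ : ζ ^ 4 + ζ ^ 3 + ζ ^ 2 + ζ + 1 = 0) (u v : F) :
    kyQr (ζ ^ 3 * u) (ζ ^ 2 * v) = kyCr ζ u v := by
  unfold kyQr kyCr
  linear_combination
    (108*ζ^40*u^14*v - 108*ζ^39*u^14*v - 432*ζ^39*u^13*v^2 + 432*ζ^38*u^13*v^2 + 972*ζ^38*u^12*v^3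
      - 972*ζ^37*u^12*v^3 - 1620*ζ^37*u^11*v^4 + 1620*ζ^36*u^11*v^4 + 2700*ζ^36*u^10*v^5 +
      108*ζ^35*u^14*v - 2700*ζ^35*u^10*v^5 - 3132*ζ^35*u^9*v^6 - 108*ζ^34*u^14*v -
      432*ζ^34*u^13*v^2 + 3132*ζ^34*u^9*v^6 + 2268*ζ^34*u^8*v^7 + 432*ζ^33*u^13*v^2 +
      972*ζ^33*u^12*v^3 - 2268*ζ^33*u^8*v^7 - 648*ζ^33*u^7*v^8 - 972*ζ^32*u^12*v^3 -
      1620*ζ^32*u^11*v^4 + 648*ζ^32*u^7*v^8 + 540*ζ^32*u^6*v^9 + 1620*ζ^31*u^11*v^4 +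
      2700*ζ^31*u^10*v^5 - 540*ζ^31*u^6*v^9 + 108*ζ^30*u^14*v - 2700*ζ^30*u^10*v^5 -
      3132*ζ^30*u^9*v^6 + 432*ζ^30*u^4*v^11 - 108*ζ^29*u^14*v - 432*ζ^29*u^13*v^2 +
      3132*ζ^29*u^9*v^6 + 2268*ζ^29*u^8*v^7 - 432*ζ^29*u^4*v^11 - 108*ζ^29*u^3*v^12 +
      432*ζ^28*u^13*v^2 + 972*ζ^28*u^12*v^3 - 2268*ζ^28*u^8*v^7 - 648*ζ^28*u^7*v^8 +
      108*ζ^28*u^3*v^12 + 108*ζ^28*u^2*v^13 - 972*ζ^27*u^12*v^3 - 1620*ζ^27*u^11*v^4 +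
      648*ζ^27*u^7*v^8 + 540*ζ^27*u^6*v^9 - 108*ζ^27*u^2*v^13 + 1620*ζ^26*u^11*v^4 +
      2700*ζ^26*u^10*v^5 - 540*ζ^26*u^6*v^9 + 108*ζ^25*u^14*v - 2700*ζ^25*u^10*v^5 -
      3132*ζ^25*u^9*v^6 + 432*ζ^25*u^4*v^11 - 108*ζ^24*u^14*v - 432*ζ^24*u^13*v^2 +
      3132*ζ^24*u^9*v^6 + 2268*ζ^24*u^8*v^7 - 432*ζ^24*u^4*v^11 - 108*ζ^24*u^3*v^12 +
      432*ζ^23*u^13*v^2 + 972*ζ^23*u^12*v^3 - 2268*ζ^23*u^8*v^7 - 648*ζ^23*u^7*v^8 +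
      108*ζ^23*u^3*v^12 + 108*ζ^23*u^2*v^13 - 972*ζ^22*u^12*v^3 - 1620*ζ^22*u^11*v^4 +
      648*ζ^22*u^7*v^8 + 540*ζ^22*u^6*v^9 - 108*ζ^22*u^2*v^13 + 1620*ζ^21*u^11*v^4 +
      2700*ζ^21*u^10*v^5 - 540*ζ^21*u^6*v^9 + 108*ζ^20*u^14*v - 2700*ζ^20*u^10*v^5 -
      3132*ζ^20*u^9*v^6 + 432*ζ^20*u^4*v^11 - 108*ζ^19*u^14*v - 432*ζ^19*u^13*v^2 +
      3132*ζ^19*u^9*v^6 + 2268*ζ^19*u^8*v^7 - 432*ζ^19*u^4*v^11 - 108*ζ^19*u^3*v^12 +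
      432*ζ^18*u^13*v^2 + 972*ζ^18*u^12*v^3 - 2268*ζ^18*u^8*v^7 - 648*ζ^18*u^7*v^8 +
      108*ζ^18*u^3*v^12 + 108*ζ^18*u^2*v^13 - 972*ζ^17*u^12*v^3 - 1620*ζ^17*u^11*v^4 +
      648*ζ^17*u^7*v^8 + 540*ζ^17*u^6*v^9 - 108*ζ^17*u^2*v^13 + 1620*ζ^16*u^11*v^4 +
      2700*ζ^16*u^10*v^5 - 540*ζ^16*u^6*v^9 + 108*ζ^15*u^14*v - 2700*ζ^15*u^10*v^5 -
      3132*ζ^15*u^9*v^6 + 432*ζ^15*u^4*v^11 - 108*ζ^14*u^14*v - 432*ζ^14*u^13*v^2 +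
      3132*ζ^14*u^9*v^6 + 2268*ζ^14*u^8*v^7 - 432*ζ^14*u^4*v^11 - 108*ζ^14*u^3*v^12 +
      432*ζ^13*u^13*v^2 + 972*ζ^13*u^12*v^3 - 2268*ζ^13*u^8*v^7 - 648*ζ^13*u^7*v^8 +
      108*ζ^13*u^3*v^12 + 108*ζ^13*u^2*v^13 - 972*ζ^12*u^12*v^3 - 1620*ζ^12*u^11*v^4 +
      648*ζ^12*u^7*v^8 + 540*ζ^12*u^6*v^9 - 108*ζ^12*u^2*v^13 + 1620*ζ^11*u^11*v^4 +
      2700*ζ^11*u^10*v^5 - 540*ζ^11*u^6*v^9 + 108*ζ^10*u^14*v - 2700*ζ^10*u^10*v^5 -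
      3132*ζ^10*u^9*v^6 + 432*ζ^10*u^4*v^11 - 108*ζ^9*u^14*v - 432*ζ^9*u^13*v^2 +
      3132*ζ^9*u^9*v^6 + 2268*ζ^9*u^8*v^7 - 432*ζ^9*u^4*v^11 - 108*ζ^9*u^3*v^12 +
      432*ζ^8*u^13*v^2 + 972*ζ^8*u^12*v^3 - 2268*ζ^8*u^8*v^7 - 648*ζ^8*u^7*v^8 + 108*ζ^8*u^3*v^12
      + 108*ζ^8*u^2*v^13 - 972*ζ^7*u^12*v^3 - 1620*ζ^7*u^11*v^4 + 648*ζ^7*u^7*v^8 +
      540*ζ^7*u^6*v^9 - 108*ζ^7*u^2*v^13 + 1620*ζ^6*u^11*v^4 + 2700*ζ^6*u^10*v^5 -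
      540*ζ^6*u^6*v^9 + 108*ζ^5*u^14*v - 2700*ζ^5*u^10*v^5 - 3132*ζ^5*u^9*v^6 + 432*ζ^5*u^4*v^11
      - 108*ζ^4*u^14*v - 432*ζ^4*u^13*v^2 + 3132*ζ^4*u^9*v^6 + 2268*ζ^4*u^8*v^7 -
      432*ζ^4*u^4*v^11 - 108*ζ^4*u^3*v^12 + 432*ζ^3*u^13*v^2 + 972*ζ^3*u^12*v^3 -
      2268*ζ^3*u^8*v^7 - 648*ζ^3*u^7*v^8 + 108*ζ^3*u^3*v^12 + 108*ζ^3*u^2*v^13 - 972*ζ^2*u^12*v^3
      - 1620*ζ^2*u^11*v^4 + 648*ζ^2*u^7*v^8 + 540*ζ^2*u^6*v^9 - 108*ζ^2*u^2*v^13 +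
      1620*ζ*u^11*v^4 + 2700*ζ*u^10*v^5 - 540*ζ*u^6*v^9 + 108*u^14*v - 2700*u^10*v^5 -
      3132*u^9*v^6 + 432*u^4*v^11) * hζ

set_option maxHeartbeats 4000000 in
theorem chord_x {ζ : F} (hζ : ζ ^ 4 + ζ ^ 3 + ζ ^ 2 + ζ + 1 = 0) (u v : F) :
    (kyQr u v + kyPr ζ u v) ^ 2 = (kxCr ζ u v + kxQr u v + kxPr ζ u v) * (kxQr u v - kxPr ζ u v) ^ 2 := by
  unfold kyQr kyPr kxCr kxQr kxPr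
  linear_combination
    (-(46656/125)*ζ^5*u^30 - (46656/25)*ζ^5*u^29*v - (93312/25)*ζ^5*u^28*v^2 -
      (1539648/125)*ζ^5*u^25*v^5 - (186624/5)*ζ^5*u^24*v^6 - (419904/5)*ζ^5*u^23*v^7 -
      (3359232/25)*ζ^5*u^20*v^10 - 139968*ζ^5*u^19*v^11 - (2426112/5)*ζ^5*u^18*v^12 -
      (11803968/25)*ζ^5*u^15*v^15 + (2426112/5)*ζ^5*u^14*v^16 - 139968*ζ^5*u^13*v^17 +
      (3359232/25)*ζ^5*u^10*v^20 - (419904/5)*ζ^5*u^9*v^21 + (186624/5)*ζ^5*u^8*v^22 -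
      (1539648/125)*ζ^5*u^5*v^25 + (93312/25)*ζ^5*u^4*v^26 - (46656/25)*ζ^5*u^3*v^27 +
      (46656/125)*ζ^5*v^30 - (93312/125)*ζ^4*u^30 - (93312/25)*ζ^4*u^29*v -
      (93312/25)*ζ^4*u^28*v^2 + (139968/25)*ζ^4*u^27*v^3 - (3079296/125)*ζ^4*u^25*v^5 -
      (373248/5)*ζ^4*u^24*v^6 - (419904/5)*ζ^4*u^23*v^7 + (606528/5)*ζ^4*u^22*v^8 -
      (6718464/25)*ζ^4*u^20*v^10 - 279936*ζ^4*u^19*v^11 - (2426112/5)*ζ^4*u^18*v^12 +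
      (3125952/5)*ζ^4*u^17*v^13 - (23607936/25)*ζ^4*u^15*v^15 + (4852224/5)*ζ^4*u^14*v^16 -
      139968*ζ^4*u^13*v^17 - (1726272/5)*ζ^4*u^12*v^18 + (6718464/25)*ζ^4*u^10*v^20 -
      (839808/5)*ζ^4*u^9*v^21 + (186624/5)*ζ^4*u^8*v^22 + 46656*ζ^4*u^7*v^23 -
      (3079296/125)*ζ^4*u^5*v^25 + (186624/25)*ζ^4*u^4*v^26 - (46656/25)*ζ^4*u^3*v^27 -
      (46656/25)*ζ^4*u^2*v^28 + (93312/125)*ζ^4*v^30 - (46656/25)*ζ^3*u^29*v +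
      (93312/25)*ζ^3*u^28*v^2 + (139968/25)*ζ^3*u^27*v^3 - (46656/5)*ζ^3*u^26*v^4 -
      (186624/5)*ζ^3*u^24*v^6 + (419904/5)*ζ^3*u^23*v^7 + (606528/5)*ζ^3*u^22*v^8 -
      (1026432/5)*ζ^3*u^21*v^9 - 139968*ζ^3*u^19*v^11 + (2426112/5)*ζ^3*u^18*v^12 +
      (3125952/5)*ζ^3*u^17*v^13 - (5552064/5)*ζ^3*u^16*v^14 + (2426112/5)*ζ^3*u^14*v^16 +
      139968*ζ^3*u^13*v^17 - (1726272/5)*ζ^3*u^12*v^18 + (1026432/5)*ζ^3*u^11*v^19 -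
      (419904/5)*ζ^3*u^9*v^21 - (186624/5)*ζ^3*u^8*v^22 + 46656*ζ^3*u^7*v^23 -
      (46656/5)*ζ^3*u^6*v^24 + (93312/25)*ζ^3*u^4*v^26 + (46656/25)*ζ^3*u^3*v^27 -
      (46656/25)*ζ^3*u^2*v^28 + (373248/125)*ζ^2*u^30 + (139968/25)*ζ^2*u^29*v +
      (93312/25)*ζ^2*u^28*v^2 - (279936/25)*ζ^2*u^27*v^3 + (93312/5)*ζ^2*u^26*v^4 +
      (6485184/125)*ζ^2*u^25*v^5 + (746496/5)*ζ^2*u^24*v^6 + (373248/5)*ζ^2*u^23*v^7 -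
      (1213056/5)*ζ^2*u^22*v^8 + (2052864/5)*ζ^2*u^21*v^9 + (1446336/25)*ζ^2*u^20*v^10 +
      (6205248/5)*ζ^2*u^19*v^11 + 279936*ζ^2*u^18*v^12 - (6251904/5)*ζ^2*u^17*v^13 +
      (11104128/5)*ζ^2*u^16*v^14 - (39237696/25)*ζ^2*u^15*v^15 + 2985984*ζ^2*u^14*v^16 -
      (4852224/5)*ζ^2*u^13*v^17 + (3452544/5)*ζ^2*u^12*v^18 - (2052864/5)*ζ^2*u^11*v^19 +
      (26547264/25)*ζ^2*u^10*v^20 - (2846016/5)*ζ^2*u^9*v^21 + (839808/5)*ζ^2*u^8*v^22 -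
      93312*ζ^2*u^7*v^23 + (93312/5)*ζ^2*u^6*v^24 - (19175616/125)*ζ^2*u^5*v^25 +
      (653184/25)*ζ^2*u^4*v^26 - (186624/25)*ζ^2*u^3*v^27 + (93312/25)*ζ^2*u^2*v^28 +
      (793152/125)*ζ^2*v^30 + (559872/125)*ζ*u^30 + (186624/25)*ζ*u^29*v - (373248/25)*ζ*u^28*v^2
      + (93312/25)*ζ*u^27*v^3 + (93312/5)*ζ*u^26*v^4 + (10310976/125)*ζ*u^25*v^5 +
      (839808/5)*ζ*u^24*v^6 - 326592*ζ*u^23*v^7 + (373248/5)*ζ*u^22*v^8 + (2052864/5)*ζ*u^21*v^9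
      + (4385664/25)*ζ*u^20*v^10 + (4852224/5)*ζ*u^19*v^11 - (8678016/5)*ζ*u^18*v^12 +
      279936*ζ*u^17*v^13 + (11104128/5)*ζ*u^16*v^14 - (52674624/25)*ζ*u^15*v^15 +
      279936*ζ*u^14*v^16 + (2752704/5)*ζ*u^13*v^17 - (4852224/5)*ζ*u^12*v^18 -
      (2052864/5)*ζ*u^11*v^19 - (4385664/25)*ζ*u^10*v^20 - (373248/5)*ζ*u^9*v^21 -
      (279936/5)*ζ*u^8*v^22 + (839808/5)*ζ*u^7*v^23 + (93312/5)*ζ*u^6*v^24 +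
      (10310976/125)*ζ*u^5*v^25 + (93312/25)*ζ*u^4*v^26 + (46656/25)*ζ*u^3*v^27 -
      (186624/25)*ζ*u^2*v^28 - (559872/125)*ζ*v^30 + (373248/125)*u^30 + (93312/25)*u^29*v -
      (559872/25)*u^28*v^2 + (1073088/25)*u^27*v^3 - (186624/5)*u^26*v^4 +
      (11150784/125)*u^25*v^5 + (373248/5)*u^24*v^6 - (2426112/5)*u^23*v^7 + (4712256/5)*u^22*v^8
      - (4105728/5)*u^21*v^9 + (21974976/25)*u^20*v^10 + 279936*u^19*v^11 -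
      (12503808/5)*u^18*v^12 + (25334208/5)*u^17*v^13 - (22208256/5)*u^16*v^14 +
      (71803584/25)*u^15*v^15 - (4852224/5)*u^14*v^16 + (6905088/5)*u^13*v^17 - 1166400*u^12*v^18
      + (4105728/5)*u^11*v^19 + (6018624/25)*u^10*v^20 + (839808/5)*u^9*v^21 - 186624*u^8*v^22 +
      (419904/5)*u^7*v^23 - (186624/5)*u^6*v^24 - (14510016/125)*u^5*v^25 - (186624/25)*u^4*v^26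
      + (186624/25)*u^3*v^27 - (46656/25)*u^2*v^28 + (793152/125)*v^30) * hζ

set_option maxHeartbeats 4000000 in
theorem chord_y {ζ : F} (hζ : ζ ^ 4 + ζ ^ 3 + ζ ^ 2 + ζ + 1 = 0) (u v : F) :
    kyCr ζ u v * (kxQr u v - kxPr ζ u v) + (kyQr u v + kyPr ζ u v) * (kxCr ζ u v - kxQr u v) + kyQr u v * (kxQr u v - kxPr ζ u v) = 0 := by
  unfold kyCr kyQr kyPr kxCr kxQr kxPr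
  linear_combination
    ((7776/5)*ζ^2*u^24*v + (23328/5)*ζ^2*u^23*v^2 - (23328/5)*ζ^2*u^19*v^6 +
      (202176/5)*ζ^2*u^18*v^7 - (1213056/5)*ζ^2*u^14*v^11 - (606528/5)*ζ^2*u^13*v^12 +
      (23328/5)*ζ^2*u^9*v^16 + (225504/5)*ζ^2*u^8*v^17 + (7776/5)*ζ^2*u^4*v^21 -
      (15552/5)*ζ^2*u^3*v^22 + (15552/5)*ζ*u^24*v + (15552/5)*ζ*u^23*v^2 - (46656/5)*ζ*u^22*v^3 +
      (31104/5)*ζ*u^19*v^6 + (147744/5)*ζ*u^18*v^7 - (520992/5)*ζ*u^17*v^8 -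
      (1531872/5)*ζ*u^14*v^11 - (287712/5)*ζ*u^13*v^12 - (31104/5)*ζ*u^12*v^13 +
      (396576/5)*ζ*u^9*v^16 - (147744/5)*ζ*u^8*v^17 + (93312/5)*ζ*u^7*v^18 - (23328/5)*ζ*u^4*v^21
      + (15552/5)*ζ*u^3*v^22 - (7776/5)*ζ*u^2*v^23 + (15552/5)*u^24*v - (7776/5)*u^23*v^2 -
      (23328/5)*u^22*v^3 + 15552*u^21*v^4 + (147744/5)*u^19*v^6 + (23328/5)*u^18*v^7 -
      (202176/5)*u^17*v^8 + 178848*u^16*v^9 - (287712/5)*u^14*v^11 + (1213056/5)*u^13*v^12 +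
      (606528/5)*u^12*v^13 + 69984*u^11*v^14 - (147744/5)*u^9*v^16 - (23328/5)*u^8*v^17 -
      (225504/5)*u^7*v^18 - 7776*u^6*v^19 + (15552/5)*u^4*v^21 - (7776/5)*u^3*v^22 +
      (15552/5)*u^2*v^23) * hζ

end Fermat.Agent.G35.Klein.Section
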