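import Fermat.Agent.G35.Klein.Psi5

/-!
# GATE-Q (S52) / node Q1: the `5`-torsion section `P0 = (x0, y0)` of Klein's family (helper21)

`kleinCurveUV U V : y² = x³ − 27·kc4(U,V)·x + 54·kT(U,V)` (`U = u⁵`, `V = v⁵` on the cone).
For a primitive 5th root of unity `ζ` (hypothesis `ζ⁴ + ζ³ + ζ² + ζ + 1 = 0`) put
`s = √5 = ks ζ = 1 + 2(ζ + ζ⁴)` and `w = kw ζ = ζ − ζ⁻¹ = ζ − ζ⁴` (so `w² = −(5 + s)/2`).  Then

* `x0 = kx0 s U V` (helper26, `Psi5.lean`),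
* `y0 = ky0 ζ U V = w · kC s U V`,
  `kC s U V = 54/5 · ((s+3) U³ + (9s+37) U² V + (41 − 23 s) U V² + (2s − 4) V³)`

satisfy `y0² = x0³ − 27 kc4 x0 + 54 kT` (`ky0_sq`; explicit `linear_combination` certificate
`section_cert`, cofactors found by exact arithmetic in `ℚ(√5)[U,V]`: square root of the sextic).

Main declarations: `ks`, `kw`, `ks_sq`, `kw_sq`, `kC`, `ky0`, `section_cert`, `ky0_sq`,
`equation_P0UV`, `nonsingular_P0UV`, `P0UV`, `P0` (cone version), `P0_ne_zero`,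
parity/scaling lemmas `kx0_neg_neg`, `ky0_neg_neg`.
-/

set_option autoImplicit false

namespace Fermat.Agent.G35.Klein.Section

open Fermat.Agent.G35.Klein

variable {F : Type*} [Field F]

/-- `√5 = 1 + 2(ζ + ζ⁴)`. -/
def ks (ζ : F) : F := 1 + 2 * (ζ + ζ ^ 4)

/-- `ζ − ζ⁻¹ = ζ − ζ⁴`. -/
def kw (ζ : F) : F := ζ - ζ ^ 4

theorem ks_sq {ζ : F} (hζ : ζ ^ 4 + ζ ^ 3 + ζ ^ 2 + ζ + 1 = 0) : ks ζ ^ 2 = 5 := by
  unfold ks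
  linear_combination (4 * ζ ^ 4 - 4 * ζ ^ 3 + 8 * ζ - 4) * hζ

theorem two_mul_kw_sq {ζ : F} (hζ : ζ ^ 4 + ζ ^ 3 + ζ ^ 2 + ζ + 1 = 0) :
    2 * kw ζ ^ 2 = -(5 + ks ζ) := by
  unfold kw ks
  linear_combination (2 * ζ ^ 4 - 2 * ζ ^ 3 - 4 * ζ + 6) * hζ

theorem kw_sq [CharZero F] {ζ : F} (hζ : ζ ^ 4 + ζ ^ 3 + ζ ^ 2 + ζ + 1 = 0) :
    kw ζ ^ 2 = -(5 + ks ζ) / 2 := by
  linear_combination (1 / 2 : F) * two_mul_kw_sq hζ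

/-- The cubic `C` with `y0 = (ζ − ζ⁻¹) · C(√5; U, V)`. -/
def kC (s U V : F) : F :=
  54 / 5 * ((s + 3) * U ^ 3 + (9 * s + 37) * U ^ 2 * V + (41 - 23 * s) * U * V ^ 2
    + (2 * s - 4) * V ^ 3)

/-- **The on-curve certificate**, abstract form: `s² = 5`, `w² = −(5+s)/2`. -/
theorem section_cert [CharZero F] (s w U V : F) (hs : s ^ 2 = 5) (hw : w ^ 2 = -(5 + s) / 2) :
    (w * kC s U V) ^ 2 = kx0 s U V ^ 3 + -27 * kc4 U V * kx0 s U V + 54 * kT U V := by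
  unfold kC kx0 kc4 kT
  linear_combination
    (-(1458/125)*s*U^6 + (61236/125)*s*U^5*V + (368874/25)*s*U^4*V^2 + (2073276/25)*s*U^3*V^3
      - (1243674/25)*s*U^2*V^4 + (863136/125)*s*U*V^5 - (34992/125)*s*V^6 - (1458/25)*U^6
      + (2916/25)*U^5*V + (121014/5)*U^4*V^2 + (877716/5)*U^3*V^3 + (53946/5)*U^2*V^4
      - (157464/25)*U*V^5 + (8748/25)*V^6) * hs
    + (54 / 5 * ((s + 3) * U ^ 3 + (9 * s + 37) * U ^ 2 * V + (41 - 23 * s) * U * V ^ 2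
        + (2 * s - 4) * V ^ 3)) ^ 2 * hw

/-- `y0`. -/
def ky0 (ζ U V : F) : F := kw ζ * kC (ks ζ) U V

theorem ky0_sq [CharZero F] {ζ : F} (hζ : ζ ^ 4 + ζ ^ 3 + ζ ^ 2 + ζ + 1 = 0) (U V : F) :
    ky0 ζ U V ^ 2 = kx0 (ks ζ) U V ^ 3 + -27 * kc4 U V * kx0 (ks ζ) U V + 54 * kT U V :=
  section_cert (ks ζ) (kw ζ) U V (ks_sq hζ) (kw_sq hζ)

/-! ### parity: `x0` is even, `y0` is odd in `(U, V)` -/

theorem kx0_neg_neg [CharZero F] (s U V : F) : kx0 s (-U) (-V) = kx0 s U V := by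
  unfold kx0; ring

theorem kC_neg_neg (s U V : F) : kC s (-U) (-V) = -kC s U V := by
  unfold kC; ring

theorem ky0_neg_neg (ζ U V : F) : ky0 ζ (-U) (-V) = -ky0 ζ U V := by
  unfold ky0; rw [kC_neg_neg]; ring

/-! ### the point -/

/-- `(x0, y0)` lies on `kleinCurveUV U V`. -/
theorem equation_P0UV [CharZero F] {ζ : F} (hζ : ζ ^ 4 + ζ ^ 3 + ζ ^ 2 + ζ + 1 = 0) (U V : F) :
    (kleinCurveUV U V).toAffine.Equation (kx0 (ks ζ) U V) (ky0 ζ U V) := by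
  rw [WeierstrassCurve.Affine.equation_iff]
  have h := ky0_sq hζ U V
  simp only [kleinCurveUV]
  linear_combination h

theorem nonsingular_P0UV [CharZero F] {ζ : F} (hζ : ζ ^ 4 + ζ ^ 3 + ζ ^ 2 + ζ + 1 = 0) {U V : F}
    (hΔ : (kleinCurveUV U V).Δ ≠ 0) :
    (kleinCurveUV U V).toAffine.Nonsingular (kx0 (ks ζ) U V) (ky0 ζ U V) :=
  (WeierstrassCurve.Affine.equation_iff_nonsingular_of_Δ_ne_zero hΔ).mp (equation_P0UV hζ U V)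

/-- The section `P0` as a point of `kleinCurveUV U V`. -/
def P0UV [CharZero F] {ζ : F} (hζ : ζ ^ 4 + ζ ^ 3 + ζ ^ 2 + ζ + 1 = 0) {U V : F}
    (hΔ : (kleinCurveUV U V).Δ ≠ 0) : (kleinCurveUV U V).toAffine.Point :=
  .some _ _ (nonsingular_P0UV hζ hΔ)

theorem P0UV_ne_zero [CharZero F] {ζ : F} (hζ : ζ ^ 4 + ζ ^ 3 + ζ ^ 2 + ζ + 1 = 0) {U V : F}
    (hΔ : (kleinCurveUV U V).Δ ≠ 0) : P0UV hζ hΔ ≠ 0 :=
  WeierstrassCurve.Affine.Point.some_ne_zero _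

/-- The section `P0` on the cone: a point of `kleinCurve u v`. -/
def P0 [CharZero F] {ζ : F} (hζ : ζ ^ 4 + ζ ^ 3 + ζ ^ 2 + ζ + 1 = 0) {u v : F}
    (hΔ : (kleinCurve u v).Δ ≠ 0) : (kleinCurve u v).toAffine.Point :=
  P0UV (U := u ^ 5) (V := v ^ 5) hζ hΔ

theorem P0_ne_zero [CharZero F] {ζ : F} (hζ : ζ ^ 4 + ζ ^ 3 + ζ ^ 2 + ζ + 1 = 0) {u v : F}
    (hΔ : (kleinCurve u v).Δ ≠ 0) : P0 hζ hΔ ≠ 0 :=
  P0UV_ne_zero hζ _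

theorem P0_eq_some [CharZero F] {ζ : F} (hζ : ζ ^ 4 + ζ ^ 3 + ζ ^ 2 + ζ + 1 = 0) {u v : F}
    (hΔ : (kleinCurve u v).Δ ≠ 0) :
    P0 hζ hΔ = .some (kx0 (ks ζ) (u ^ 5) (v ^ 5)) (ky0 ζ (u ^ 5) (v ^ 5))
      (nonsingular_P0UV (U := u ^ 5) (V := v ^ 5) hζ hΔ) := rfl

end Fermat.Agent.G35.Klein.Section
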