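import Fermat.Agent.G35.Klein.Section
import Fermat.Agent.GE.Tors.KeyAll

/-!
# GATE-Q (S52) / node Q1: `5 • P0 = 0` (helper21)

From helper26's division-polynomial certificate `ΨSq_five_eval_kx0` and the EC-TORS criterion
`GE.Tors.nsmul_eq_zero_iff_ΨSq` (`n • (x, y) = 0 ↔ ΨSq_n(x) = 0` in characteristic zero):

* `five_nsmul_P0UV`, `five_nsmul_P0` : `5 • P0 = 0`;
* `addOrderOf_P0UV`, `addOrderOf_P0` : `P0` has exact order `5`;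
* `ky0_ne_zero` : `y0 ≠ 0` (no point of order `5` is `2`-torsion).
-/

set_option autoImplicit false

namespace Fermat.Agent.G35.Klein.Section

open Fermat.Agent.G35.Klein

universe u

variable {F : Type u} [Field F] [DecidableEq F] [CharZero F]

theorem five_nsmul_P0UV {ζ : F} (hζ : ζ ^ 4 + ζ ^ 3 + ζ ^ 2 + ζ + 1 = 0) {U V : F}
    (hΔ : (kleinCurveUV U V).Δ ≠ 0) : 5 • P0UV hζ hΔ = 0 :=
  (Fermat.Agent.GE.Tors.nsmul_eq_zero_iff_ΨSq (kleinCurveUV U V) hΔ 5 (by norm_num)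
    (nonsingular_P0UV hζ hΔ)).mpr (ΨSq_five_eval_kx0 (ks ζ) U V (ks_sq hζ))

theorem five_nsmul_P0 {ζ : F} (hζ : ζ ^ 4 + ζ ^ 3 + ζ ^ 2 + ζ + 1 = 0) {u v : F}
    (hΔ : (kleinCurve u v).Δ ≠ 0) : 5 • P0 hζ hΔ = 0 :=
  five_nsmul_P0UV hζ _

theorem addOrderOf_P0UV {ζ : F} (hζ : ζ ^ 4 + ζ ^ 3 + ζ ^ 2 + ζ + 1 = 0) {U V : F}
    (hΔ : (kleinCurveUV U V).Δ ≠ 0) : addOrderOf (P0UV hζ hΔ) = 5 :=
  haveI : Fact (Nat.Prime 5) := ⟨by norm_num⟩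
  addOrderOf_eq_prime (five_nsmul_P0UV hζ hΔ) (P0UV_ne_zero hζ hΔ)

theorem addOrderOf_P0 {ζ : F} (hζ : ζ ^ 4 + ζ ^ 3 + ζ ^ 2 + ζ + 1 = 0) {u v : F}
    (hΔ : (kleinCurve u v).Δ ≠ 0) : addOrderOf (P0 hζ hΔ) = 5 :=
  addOrderOf_P0UV hζ _

/-- `y0 ≠ 0`: a point of order `5` is not `2`-torsion. -/
theorem ky0_ne_zero {ζ : F} (hζ : ζ ^ 4 + ζ ^ 3 + ζ ^ 2 + ζ + 1 = 0) {U V : F}
    (hΔ : (kleinCurveUV U V).Δ ≠ 0) : ky0 ζ U V ≠ 0 := by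
  intro h0
  have hneg : -P0UV hζ hΔ = P0UV hζ hΔ := by
    unfold P0UV
    rw [WeierstrassCurve.Affine.Point.neg_some]
    congr 1
    simp [WeierstrassCurve.Affine.negY, h0]
  have h2 : 2 • P0UV hζ hΔ = 0 := by
    rw [two_nsmul]
    nth_rewrite 1 [← hneg]
    exact neg_add_cancel _
  have h5 := five_nsmul_P0UV hζ hΔ
  have h1 : P0UV hζ hΔ = 0 := by
    have : (5 : ℕ) • P0UV hζ hΔ = 2 • (2 • P0UV hζ hΔ) + P0UV hζ hΔ := by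
      rw [← mul_nsmul]; rw [← succ_nsmul]
    rw [h5, h2, nsmul_zero, zero_add] at this
    exact this.symm
  exact P0UV_ne_zero hζ hΔ h1

end Fermat.Agent.G35.Klein.Section
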